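import Mathlib
import Fermat.Agent.PT.Glob.KIface4

/-!
# W3-PT / PT-GLOB-K (helper29): K-N2-BOCKLOC — `KBockLev → KBockLoc`

The coboundary of the Bockstein–Kummer cochain `ζ' = zetaP p k ξ γ` is locally a continuous
coboundary at every place of `D_U`: `res (d¹ ζ') = d¹ (res ζ')` and `res ζ'` is level-constant
for the finite levels (it factors through the normal closure of `ℚ(γ)`).
-/

set_option autoImplicit false

open ExtCitation NumberField IsDedekindDomain MulAction

namespace Fermat.Agent.PT.Glob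

open Fermat.Agent.PT Fermat.Agent.PT.Shap Fermat.Agent.Bridge

local notation "GQ₀" => (AlgebraicClosure ℚ ≃ₐ[ℚ] AlgebraicClosure ℚ)

noncomputable section

/-- `kumQ` only depends on the value `g B`. -/
theorem h29k_kumQ_congr (n : ℕ) (ζ B : Qb) {g g' : GQ₀} (h : g B = g' B) :
    kumQ n ζ B g = kumQ n ζ B g' := by
  have key : ∀ x y : Qb, x = y →
      (open scoped Classical in
        if h : ∃ k : ZMod n, x = ζ ^ k.val * B then h.choose else (0 : ZMod n)) =
      (open scoped Classical in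
        if h : ∃ k : ZMod n, y = ζ ^ k.val * B then h.choose else (0 : ZMod n)) := by
    rintro x y rfl
    rfl
  exact key _ _ h

/-- `zetaP` is right invariant under the automorphisms fixing `γ`. -/
theorem h29k_zetaP_mul_of_fix (p k : ℕ) (ξ γ : Qb) (g s : GQ₀) (hs : s γ = γ) :
    zetaP p k ξ γ (g * s) = zetaP p k ξ γ g := by
  unfold zetaP
  rw [h29k_kumQ_congr (p ^ (k + 1)) ξ γ (g := g * s) (g' := g)]
  rw [AlgEquiv.mul_apply, hs]

theorem h29k_isGalois_Qb : IsGalois ℚ Qb :=
  haveI : IsAlgClosure ℚ (AlgebraicClosure ℚ) := ⟨inferInstance, AlgebraicClosure.isAlgebraic ℚ⟩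
  IsAlgClosure.isGalois ℚ (AlgebraicClosure ℚ)

theorem h29k_fixingSubgroup_normal (F : IntermediateField ℚ Qb) (hn : Normal ℚ F) :
    F.fixingSubgroup.Normal := by
  have hG : IsGalois ℚ F := ⟨⟩
  exact @IsGalois.fixingSubgroup_normal_of_isGalois ℚ Qb _ _ _ F h29k_isGalois_Qb hG

/-- a finite normal extension of `ℚ` containing `γ`. -/
theorem h29k_exists_normal_mem (γ : Qb) :
    ∃ M : IntermediateField ℚ Qb, FiniteDimensional ℚ M ∧ Normal ℚ M ∧ γ ∈ M := by
  have hint : IsIntegral ℚ γ := ((AlgebraicClosure.isAlgebraic ℚ).isAlgebraic γ).isIntegral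
  have hQb : IsGalois ℚ Qb := h29k_isGalois_Qb
  have hnQb : Normal ℚ Qb := hQb.to_normal
  have : FiniteDimensional ℚ (IntermediateField.adjoin ℚ {γ}) :=
    IntermediateField.adjoin.finiteDimensional hint
  refine ⟨IntermediateField.normalClosure ℚ (IntermediateField.adjoin ℚ {γ}) Qb,
    normalClosure.is_finiteDimensional ℚ _ Qb, normalClosure.normal ℚ _ Qb, ?_⟩
  exact (IntermediateField.adjoin ℚ {γ}).le_normalClosure
    (IntermediateField.mem_adjoin_simple_self ℚ γ)

/-- restriction commutes with `d¹` (any representation). -/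
theorem h29k_res2_d1 {k : Type} [CommRing k] {G H : Type} [Group G] [Group H] {V : Type}
    [AddCommGroup V] [Module k V] (ρ : Representation k G V) (f : H →* G) (z : G → V) :
    res2 k V f (d1 ρ z) = d1 (resRep ρ f) (res1 k V f z) := by
  funext ⟨g, h⟩
  simp [d1_apply, res1_apply, res2_apply, resRep_apply, map_mul]

theorem h29k_kBockLoc : KBockLev → KBockLoc := by
  intro hlev p _ S U _ u k ξ γ hadm hξ hγ hγL hdv
  have hZ := hlev p S U k ξ γ hadm hξ hγ hγL hdv
  suffices hloc : ∀ P : (DU p S U u).P,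
      res2 (ZMod p) (ZMod p) ((DU p S U u).loc P)
        (d1 (trivF p U) (fun g : ↥U => zetaP p k ξ γ g)) ∈
        B2 ((DU p S U u).levH P) ((DU p S U u).repAt (trivU p S U u) P) from
    ⟨hZ, (Submodule.mem_iInf _).2 hloc⟩
  intro P
  obtain ⟨M, hMfin, hMn, hγM⟩ := h29k_exists_normal_mem γ
  have := hMfin
  have hMN : M.fixingSubgroup.Normal := h29k_fixingSubgroup_normal M hMn
  have hkey : res2 (ZMod p) (ZMod p) ((DU p S U u).loc P)
      (d1 (trivF p U) (fun g : ↥U => zetaP p k ξ γ g)) =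
      d1 ((DU p S U u).repAt (trivU p S U u) P)
        (res1 (ZMod p) (ZMod p) ((DU p S U u).loc P) (fun g : ↥U => zetaP p k ξ γ g)) :=
    h29k_res2_d1 _ _ _
  rw [hkey, mem_B2]
  refine ⟨_, ?_, rfl⟩
  -- level-constancy
  refine ⟨((M.fixingSubgroup.comap (primeLocalToGlobal P.1.1)).comap (Subgroup.subtype _)),
    ⟨M.fixingSubgroup.comap (primeLocalToGlobal P.1.1), ⟨M.fixingSubgroup, ⟨M, hMfin, hMn, rfl⟩,
      rfl⟩, rfl⟩, ?_⟩
  intro g s hs
  have hmul : (DU p S U u).loc P (g * s) = (DU p S U u).loc P g * (DU p S U u).loc P s :=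
    map_mul _ _ _
  have hs' : Subtype.val ((DU p S U u).loc P s) ∈ M.fixingSubgroup := by
    have h1 : primeLocalToGlobal P.1.1 (Subtype.val s) ∈ M.fixingSubgroup := hs
    have h2 := hMN.conj_mem _ h1 ((u.sec.gsec P.2.1)⁻¹)
    rw [inv_inv] at h2
    exact h2
  have hfix : (Subtype.val ((DU p S U u).loc P s) : GQ₀) γ = γ := hs' ⟨γ, hγM⟩
  show zetaP p k ξ γ (Subtype.val ((DU p S U u).loc P (g * s))) =
    zetaP p k ξ γ (Subtype.val ((DU p S U u).loc P g))
  rw [hmul]
  exact h29k_zetaP_mul_of_fix p k ξ γ _ _ hfix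

end

end Fermat.Agent.PT.Glob
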