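import Mathlib
import Fermat.Agent.PT.Glob.KIface4

/-!
# W3-PT / PT-GLOB-K (helper29): K-N2-LIN — linear algebra `KN2Core → KN2`, `KN2Core → KN2Sha`
-/

set_option autoImplicit false

open ExtCitation NumberField IsDedekindDomain MulAction

namespace Fermat.Agent.PT.Glob

open Fermat.Agent.PT Fermat.Agent.PT.Shap Fermat.Agent.Bridge

local notation "GQ₀" => (AlgebraicClosure ℚ ≃ₐ[ℚ] AlgebraicClosure ℚ)

noncomputable section

/-- abstract linear algebra: `n` elements of a submodule `Z` which are linearly independent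
modulo a submodule `B` give `n ≤ dim Z / B`. -/
theorem h29k_card_le_finrank_quot {k : Type} [Field k] {X : Type} [AddCommGroup X] [Module k X]
    (Z B : Submodule k X) [Module.Finite k (↥Z ⧸ B.comap Z.subtype)] (n : ℕ) (y : Fin n → X)
    (hy : ∀ i, y i ∈ Z) (hind : ∀ a : Fin n → k, (∑ i, a i • y i) ∈ B → a = 0) :
    n ≤ Module.finrank k (↥Z ⧸ B.comap Z.subtype) := by
  let v : Fin n → (↥Z ⧸ B.comap Z.subtype) := fun i => Submodule.Quotient.mk ⟨y i, hy i⟩
  have hli : LinearIndependent k v := by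
    rw [Fintype.linearIndependent_iff]
    intro a ha
    have h1 : (∑ i, a i • v i) =
        (B.comap Z.subtype).mkQ (∑ i, a i • (⟨y i, hy i⟩ : ↥Z)) := by
      rw [map_sum]
      refine Finset.sum_congr rfl fun i _ => ?_
      rw [map_smul]
      rfl
    rw [Submodule.mkQ_apply] at h1
    rw [h1, Submodule.Quotient.mk_eq_zero, Submodule.mem_comap] at ha
    have h2 : Z.subtype (∑ i, a i • (⟨y i, hy i⟩ : ↥Z)) = ∑ i, a i • y i := by
      simp
    rw [h2] at ha
    have := hind a ha
    intro i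
    rw [this]
    rfl
  have := hli.fintype_card_le_finrank
  simpa using this

theorem h29k_kN2Lin : KN2Lin := by
  intro hcore p _ S U _ _ hadm hfin
  obtain ⟨u⟩ := USD.nonempty U
  obtain ⟨n, y, hn, hy, hind⟩ := hcore p S U u hadm
  rw [← hn]
  refine Nat.pow_le_pow_right (Fact.out : p.Prime).pos ?_
  have hyZ : ∀ i, y i ∈ Z2 (levU S U) (trivF p U) := fun i => (hy i).1
  exact h29k_card_le_finrank_quot (Z2 (levU S U) (trivF p U)) (B2 (levU S U) (trivF p U))
    n y hyZ hind

theorem h29k_kN2ShaLin : KN2ShaLin := by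
  intro hcore p _ S U _ _ u hadm hfin
  obtain ⟨n, y, hn, hy, hind⟩ := hcore p S U u hadm
  rw [← hn]
  refine Nat.pow_le_pow_right (Fact.out : p.Prime).pos ?_
  exact h29k_card_le_finrank_quot ((DU p S U u).ZSha2 (trivU p S U u))
    (B2 (DU p S U u).lev (trivU p S U u)) n y hy hind

end

end Fermat.Agent.PT.Glob
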