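import Mathlib
import Fermat.Agent.PT.Glob.KIface5
import Fermat.Agent.PT.Bridge.DQGood

/-!
# W3-PT / PT-GLOB-K (helper29): K-DP-ZETAINERT — `KZetaInert`

* `h29d_kumQ_spec`   : if `(σ B)ⁿ = Bⁿ` then `σ B = ζ ^ (kumQ n ζ B σ).val · B`;
* `h29d_kumQ_eq`     : if `σ B = ζ ^ j · B` then `kumQ n ζ B σ = j`;
* `h29d_topDig_add`  : `topDig p k (m + p^k t) = topDig p k m + t`;
* `h29d_kZetaInert : KZetaInert`.
-/

set_option autoImplicit false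

open ExtCitation NumberField IsDedekindDomain MulAction
open scoped Pointwise

namespace Fermat.Agent.PT.Glob

open Fermat.Agent.PT Fermat.Agent.PT.Shap Fermat.Agent.Bridge

local notation "GQ₀" => (AlgebraicClosure ℚ ≃ₐ[ℚ] AlgebraicClosure ℚ)

noncomputable section

/-! ## The Kummer exponent -/

theorem h29d_kumQ_spec_of_exists (n : ℕ) (ζ B : Qb) (σ : GQ₀)
    (h : ∃ k : ZMod n, σ B = ζ ^ k.val * B) : σ B = ζ ^ (kumQ n ζ B σ).val * B := by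
  unfold kumQ
  rw [dif_pos h]
  exact h.choose_spec

/-- existence of the Kummer exponent. -/
theorem h29d_kumQ_exists (n : ℕ) [NeZero n] {ζ B : Qb} (hζ : IsPrimitiveRoot ζ n) (hB : B ≠ 0)
    (σ : GQ₀) (h : (σ B) ^ n = B ^ n) : ∃ k : ZMod n, σ B = ζ ^ k.val * B := by
  have h1 : (σ B / B) ^ n = 1 := by
    rw [div_pow, h, div_self (pow_ne_zero n hB)]
  obtain ⟨i, hi, hiζ⟩ := hζ.eq_pow_of_pow_eq_one h1
  refine ⟨(i : ZMod n), ?_⟩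
  rw [ZMod.val_natCast_of_lt hi, hiζ, div_mul_cancel₀ _ hB]

theorem h29d_kumQ_spec (n : ℕ) [NeZero n] {ζ B : Qb} (hζ : IsPrimitiveRoot ζ n) (hB : B ≠ 0)
    (σ : GQ₀) (h : (σ B) ^ n = B ^ n) : σ B = ζ ^ (kumQ n ζ B σ).val * B :=
  h29d_kumQ_spec_of_exists n ζ B σ (h29d_kumQ_exists n hζ hB σ h)

/-- uniqueness of the Kummer exponent. -/
theorem h29d_kumQ_eq (n : ℕ) [NeZero n] {ζ B : Qb} (hζ : IsPrimitiveRoot ζ n) (hB : B ≠ 0)
    (σ : GQ₀) (j : ℕ) (h : σ B = ζ ^ j * B) : kumQ n ζ B σ = (j : ZMod n) := by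
  have hex : ∃ k : ZMod n, σ B = ζ ^ k.val * B := by
    refine ⟨(j : ZMod n), ?_⟩
    rw [ZMod.val_natCast, ← pow_eq_pow_mod j hζ.pow_eq_one]
    exact h
  have h1 := h29d_kumQ_spec_of_exists n ζ B σ hex
  rw [h] at h1
  have h2 : ζ ^ j = ζ ^ (kumQ n ζ B σ).val := mul_right_cancel₀ hB h1
  rw [pow_eq_pow_mod j hζ.pow_eq_one] at h2
  have hn : 0 < n := Nat.pos_of_ne_zero (NeZero.ne n)
  have h3 : j % n = (kumQ n ζ B σ).val :=
    hζ.pow_inj (Nat.mod_lt j hn) (ZMod.val_lt _) h2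
  have h4 : ((j : ℕ) : ZMod n) = (((kumQ n ζ B σ).val : ℕ) : ZMod n) := by
    rw [← h3, ZMod.natCast_mod]
  rw [h4, ZMod.natCast_zmod_val]

/-! ## The top digit -/

theorem h29d_topDig_add (p k : ℕ) [Fact p.Prime] (m t : ℕ) :
    topDig p k ((m + p ^ k * t : ℕ) : ZMod (p ^ (k + 1))) =
      topDig p k ((m : ℕ) : ZMod (p ^ (k + 1))) + (t : ZMod p) := by
  have hp : 0 < p := (Fact.out : p.Prime).pos
  have hpk : 0 < p ^ k := pow_pos hp k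
  unfold topDig
  rw [ZMod.val_natCast, ZMod.val_natCast, ← Nat.cast_add, ZMod.natCast_eq_natCast_iff]
  rw [pow_succ]
  -- `(m + p^k t) % (p^k p) / p^k ≡ m % (p^k p) / p^k + t  [MOD p]`
  have e1 : ∀ x : ℕ, x % (p ^ k * p) / p ^ k = (x / p ^ k) % p := fun x =>
    Nat.mod_mul_right_div_self x (p ^ k) p
  rw [e1, e1]
  have e2 : (m + p ^ k * t) / p ^ k = m / p ^ k + t := Nat.add_mul_div_left m t hpk
  rw [e2]
  unfold Nat.ModEq
  rw [Nat.mod_mod, Nat.add_mod (m / p ^ k % p) t p, Nat.mod_mod, ← Nat.add_mod]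

/-! ## `KZetaInert` -/

theorem h29d_kZetaInert : KZetaInert := by
  intro p _ U k ξ γ hχ hξ hγ hγL g hg ι hι hιγ
  have hp : p.Prime := Fact.out
  have : NeZero p := ⟨hp.ne_zero⟩
  have : NeZero (p ^ (k + 1)) := ⟨pow_ne_zero _ hp.ne_zero⟩
  have hζ : IsPrimitiveRoot (ξ ^ p ^ k) p :=
    hξ.pow (pow_pos hp.pos _) (by rw [pow_succ])
  -- `g` fixes `ζ`
  have hgζ : g (ξ ^ p ^ k) = ξ ^ p ^ k :=
    (Fermat.Agent.PT.Bridge.h23b_cycloChar_eq_one_iff p hζ g).1 (hχ g hg)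
  -- `ι γ = ζ^t γ`
  have h1 : ι γ = (ξ ^ p ^ k) ^ (kumQ p (ξ ^ p ^ k) γ ι).val * γ :=
    h29d_kumQ_spec p hζ hγ ι (by rw [← map_pow, hιγ])
  -- `g γ = ξ^m γ`
  have hgfix : g (γ ^ p ^ (k + 1)) = γ ^ p ^ (k + 1) :=
    (IntermediateField.mem_fixedField_iff U _).1 hγL g hg
  have h2 : g γ = ξ ^ (kumQ (p ^ (k + 1)) ξ γ g).val * γ :=
    h29d_kumQ_spec _ hξ hγ g (by rw [← map_pow, hgfix])
  have h3 : (g * ι) γ =
      ξ ^ ((kumQ (p ^ (k + 1)) ξ γ g).val + p ^ k * (kumQ p (ξ ^ p ^ k) γ ι).val) * γ := by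
    rw [AlgEquiv.mul_apply, h1, map_mul, map_pow, hgζ, h2, ← pow_mul, pow_add]
    ring
  have h4 := h29d_kumQ_eq (p ^ (k + 1)) hξ hγ (g * ι) _ h3
  unfold zetaP
  rw [h4, h29d_topDig_add, ZMod.natCast_zmod_val, ZMod.natCast_zmod_val]

end

end Fermat.Agent.PT.Glob
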