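import Mathlib
import Fermat.Agent.PT.Glob.KIface5
import Fermat.Agent.PT.Glob.K.H29DPZeta

/-!
# W3-PT / PT-GLOB-K (helper29): K-DP-INERTGAM — `KInertUnit → KInertGam`

The action of inertia on `γ`, `γ^{p^{k+1}} = ϖ^{p^k h'} · unit`: it fixes `γᵖ` and acts on `γ` as
on `Pr^{h'}`, `Prᵖ = ϖ`.
-/

set_option autoImplicit false

open ExtCitation NumberField IsDedekindDomain MulAction
open scoped Pointwise

namespace Fermat.Agent.PT.Glob

open Fermat.Agent.PT Fermat.Agent.PT.Shap Fermat.Agent.Bridge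

local notation "GQ₀" => (AlgebraicClosure ℚ ≃ₐ[ℚ] AlgebraicClosure ℚ)

noncomputable section

/-- in a valuation subring, `yⁿ ∈ A` implies `y ∈ A` (`n ≠ 0`). -/
theorem h29d_mem_of_pow_mem (A : ValuationSubring Qb) {y : Qb} {n : ℕ} (hn : n ≠ 0)
    (h : y ^ n ∈ A) : y ∈ A := by
  rw [← A.valuation_le_one_iff] at h ⊢
  rw [map_pow] at h
  exact (pow_le_one_iff hn).1 h

/-- a root of a unit is a unit. -/
theorem h29d_isUnitAt_of_pow (A : ValuationSubring Qb) {y : Qb} {n : ℕ} (hn : n ≠ 0)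
    (h : IsUnitAt A (y ^ n)) : IsUnitAt A y := by
  refine ⟨h29d_mem_of_pow_mem A hn h.1, h29d_mem_of_pow_mem A hn ?_⟩
  rw [inv_pow]
  exact h.2

/-- iterated `KInertUnit`: a `p^j`-th root of an inertia-fixed unit is inertia-fixed. -/
theorem h29d_inertUnit_iter (hU : KInertUnit) (p : ℕ) [Fact p.Prime] (q : ℕ)
    (A : ValuationSubring Qb) (hq : q.Prime) (hqp : q ≠ p) (hA : A.LiesOverPrime q)
    (ι : GQ₀) (hι : ι ∈ A.inertiaSubgroupIn ℚ) (j : ℕ) :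
    ∀ y : Qb, IsUnitAt A y → ι (y ^ p ^ j) = y ^ p ^ j → ι y = y := by
  have hp : p.Prime := Fact.out
  induction j with
  | zero =>
    intro y _ h
    simpa using h
  | succ j ih =>
    intro y hy h
    have hyp : IsUnitAt A (y ^ p) := ⟨A.pow_mem hy.1 p, by rw [← inv_pow]; exact A.pow_mem hy.2 p⟩
    have h1 : ι ((y ^ p) ^ p ^ j) = (y ^ p) ^ p ^ j := by
      rw [← pow_mul, ← pow_succ']
      exact h
    exact hU p q A y hq hqp hA hy ι hι (ih (y ^ p) hyp h1)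

theorem h29d_kInertGam (hU : KInertUnit) : KInertGam := by
  intro p _ q A L k h' ζ γ Pr ϖ hq hqp hA hIL hζ hγ hγL hϖ hPr hx ι hι
  have hp : p.Prime := Fact.out
  have : NeZero p := ⟨hp.ne_zero⟩
  obtain ⟨hϖL, hϖ0, -, -⟩ := hϖ
  obtain ⟨x, hxu, hαx⟩ := hx
  have hιL : ∀ y ∈ L, ι y = y := fun y hy => (hIL hι) ⟨y, hy⟩
  have hιϖ : ι ϖ = ϖ := hιL ϖ hϖL
  have hPr0 : Pr ≠ 0 := by
    rintro rfl
    rw [zero_pow hp.ne_zero] at hPr
    exact hϖ0 hPr.symm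
  -- `x ∈ L`
  have hx_eq : x = γ ^ p ^ (k + 1) / ϖ ^ (p ^ k * h') := by
    rw [hαx, mul_div_cancel_left₀ _ (pow_ne_zero _ hϖ0)]
  have hxL : x ∈ L := by
    rw [hx_eq]
    exact L.div_mem hγL (pow_mem hϖL _)
  have hιx : ι x = x := hιL x hxL
  -- `x1 = γ^p / ϖ^h'`
  have hx1pow : (γ ^ p / ϖ ^ h') ^ p ^ k = x := by
    rw [hx_eq, div_pow, ← pow_mul, ← pow_mul, ← pow_succ', mul_comm h']
  have hx1u : IsUnitAt A (γ ^ p / ϖ ^ h') :=
    h29d_isUnitAt_of_pow A (pow_ne_zero k hp.ne_zero) (by rw [hx1pow]; exact hxu)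
  have hιx1 : ι (γ ^ p / ϖ ^ h') = γ ^ p / ϖ ^ h' :=
    h29d_inertUnit_iter hU p q A hq hqp hA ι hι k _ hx1u (by rw [hx1pow]; exact hιx)
  have hγp : ι (γ ^ p) = γ ^ p := by
    have e : γ ^ p = γ ^ p / ϖ ^ h' * ϖ ^ h' := by
      rw [div_mul_cancel₀ _ (pow_ne_zero _ hϖ0)]
    rw [e, map_mul, hιx1, map_pow, hιϖ]
  refine ⟨hγp, ?_⟩
  -- `x2 = γ / Pr^h'`
  have hx2pow : (γ / Pr ^ h') ^ p = γ ^ p / ϖ ^ h' := by
    rw [div_pow, ← pow_mul, mul_comm, pow_mul, hPr]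
  have hx2u : IsUnitAt A (γ / Pr ^ h') :=
    h29d_isUnitAt_of_pow A hp.ne_zero (by rw [hx2pow]; exact hx1u)
  have hιx2 : ι (γ / Pr ^ h') = γ / Pr ^ h' :=
    hU p q A _ hq hqp hA hx2u ι hι (by rw [hx2pow]; exact hιx1)
  have hιPr : ι Pr = ζ ^ (kumQ p ζ Pr ι).val * Pr :=
    h29d_kumQ_spec p hζ hPr0 ι (by rw [← map_pow, hPr, hιϖ])
  have hιγ : ι γ = ζ ^ ((kumQ p ζ Pr ι).val * h') * γ := by
    have e : γ = γ / Pr ^ h' * Pr ^ h' := by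
      rw [div_mul_cancel₀ _ (pow_ne_zero _ hPr0)]
    conv_lhs => rw [e]
    rw [map_mul, hιx2, map_pow, hιPr, mul_pow, ← pow_mul]
    conv_rhs => rw [e]
    ring
  rw [h29d_kumQ_eq p hζ hγ ι _ hιγ, Nat.cast_mul, ZMod.natCast_zmod_val, mul_comm]

end

end Fermat.Agent.PT.Glob
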