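import Mathlib
import Fermat.Agent.PT.Glob.K.H29DPInertGam
import Fermat.Agent.PT.Glob.H36InertUnit

/-!
# W3-PT / PT-GLOB-K (helper29): `KInertGam`, unconditional (with helper36's `KInertUnit`)
-/

set_option autoImplicit false

namespace Fermat.Agent.PT.Glob

theorem h29d_kInertGam_holds : KInertGam := h29d_kInertGam h36u2_kInertUnit

end Fermat.Agent.PT.Glob
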