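import Mathlib
import Fermat.Agent.PT.Loc.H48Final
import Fermat.Agent.PT.Loc.H36Unr
import Fermat.Agent.PT.Loc.MC.H65Idx

/-!
# W3-PT / PT-GLOB-K (d'), leaf K-DP-TAMEW, local part (helper65)

The tame symbol in the relative language of `Loc/Basic.lean`:
for a finite extension `K` of `ℚ_q` containing a primitive `p`-th root of unity `ζ`, a continuous
character `χ` of `G_K` which vanishes on the inertia group and is nonzero on a Frobenius element,
and `B` with `B ^ p` a uniformizer of `K`, the cup product `χ ∪ κ_B` is not a continuous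
coboundary.

Proof: `χ = χ(φ) · idx` on `G_K` (`idx` the index in `Gal(Kur K p / K)`), anticommutativity
`idx ∪ κ + κ ∪ idx = -∂(idx · κ)`, and `κ_B ∪ idx` is a standard generator (`B0Gen`).
-/

set_option autoImplicit false
set_option linter.style.haveILetI false

open scoped Classical

noncomputable section

namespace Fermat.Agent.PT.Loc

variable {q : ℕ} [Fact q.Prime]

/-- continuity is stable under pointwise binary operations. -/
theorem h65t_cont1_map2 {K : LF q} {X Y Z : Type*} (Φ : X → Y → Z) {a : Gq q → X}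
    {b : Gq q → Y} (ha : Cont1 K a) (hb : Cont1 K b) : Cont1 K (fun g => Φ (a g) (b g)) := by
  obtain ⟨F₁, hF₁, hK₁, h₁⟩ := ha
  obtain ⟨F₂, hF₂, hK₂, h₂⟩ := hb
  haveI := hF₁
  haveI := hF₂
  refine ⟨F₁ ⊔ F₂, IntermediateField.finiteDimensional_sup F₁ F₂, le_trans hK₁ le_sup_left,
    fun g hg s hs => ?_⟩
  have hs₁ : s ∈ GK F₁ := IntermediateField.fixingSubgroup_antitone le_sup_left hs
  have hs₂ : s ∈ GK F₂ := IntermediateField.fixingSubgroup_antitone le_sup_right hs
  simp only [h₁ g hg s hs₁, h₂ g hg s hs₂]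

/-- continuity is stable under post-composition. -/
theorem h65t_cont1_map {K : LF q} {X Y : Type*} (Φ : X → Y) {a : Gq q → X}
    (ha : Cont1 K a) : Cont1 K (fun g => Φ (a g)) := by
  obtain ⟨F₁, hF₁, hK₁, h₁⟩ := ha
  exact ⟨F₁, hF₁, hK₁, fun g hg s hs => by simp only [h₁ g hg s hs]⟩

/-- the cyclic index is continuous. -/
theorem h65t_cont1_idx {K K₁ : LF q} {n : ℕ} {σ : Gq q} (hc : IsCyc K K₁ n σ) :
    Cont1 K (fun g => cycIdx K₁ σ n g) :=
  ⟨K₁, hc.fin, hc.le, fun g _ s hs => h55g_cycIdx_mul_right K₁ σ n g s hs⟩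

/-- **The tame symbol (local, relative language).** -/
theorem h65t_tame_loc (p : ℕ) [Fact p.Prime] (K : LF q) [FiniteDimensional ℚ_[q] K]
    (ζ B : Om q) (χ : Gq q → ZMod p) (φ : Gq q)
    (hζK : ζ ∈ K) (hζ : IsPrimitiveRoot ζ p) (hB : IsUnif K (B ^ p)) (hφ : IsFrob K φ)
    (hχ1 : ACoc1 K χ) (hχc : Cont1 K χ) (hχI : ∀ i, IsInert K i → χ i = 0)
    (hχφ : χ φ ≠ 0) :
    ¬ ACohom K (acup χ (kum p ζ B)) 0 := by
  have hp : p.Prime := Fact.out
  have hT : LFTeich := h48f_lfTeich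
  obtain ⟨F, hFfin, hKF, hF⟩ := hχc
  haveI := hFfin
  obtain ⟨n, hn, hlev⟩ := h36n_exists_level hT K F
  -- `χ` vanishes on `G_{Kur K n}`
  have hvan : ∀ s ∈ GK (Kur K n), χ s = 0 := by
    intro s hs
    obtain ⟨i, hi, hmem⟩ := hlev s hs
    have hs' : s = i * (i⁻¹ * s) := by group
    rw [hs', hF i hi.1 _ hmem]
    exact hχI i hi
  have hN : 0 < n * p := Nat.mul_pos hn hp.pos
  have hcycN : IsCyc K (Kur K (n * p)) (n * p) φ := h48f_urCyc q K (n * p) φ hN hφ
  have hcycp : IsCyc K (Kur K p) p φ := h48f_urCyc q K p φ hp.pos hφ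
  have hleN : GK (Kur K (n * p)) ≤ GK (Kur K n) := h36n_GK_Kur_anti K (Dvd.intro p rfl)
  have hlep : GK (Kur K (n * p)) ≤ GK (Kur K p) := h36n_GK_Kur_anti K (Dvd.intro_left n rfl)
  have hχone : χ 1 = 0 := by
    have h := hχ1 1 (one_mem _) 1 (one_mem _)
    rw [mul_one] at h
    linear_combination -h
  have hpow : ∀ j : ℕ, χ (φ ^ j) = (j : ZMod p) * χ φ := by
    intro j
    induction j with
    | zero => simp [hχone]
    | succ j ih =>
      rw [pow_succ, hχ1 _ (pow_mem hφ.1 j) _ hφ.1, ih]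
      push_cast
      ring
  -- `χ = χ(φ) · idx` on `G_K`
  have key : ∀ g ∈ GK K, χ g = (cycIdx (Kur K p) φ p g : ZMod p) * χ φ := by
    intro g hg
    have hs := h65_idx_mem hcycN hg
    set j := cycIdx (Kur K (n * p)) φ (n * p) g with hj
    have hsK : (φ ^ j)⁻¹ * g ∈ GK K := h65_GK_le hcycN hs
    have hg' : g = φ ^ j * ((φ ^ j)⁻¹ * g) := by group
    have h1 : χ g = (j : ZMod p) * χ φ := by
      conv_lhs => rw [hg']
      rw [hχ1 _ (pow_mem hφ.1 j) _ hsK, hpow, hvan _ (hleN hs), add_zero]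
    have h2 : cycIdx (Kur K p) φ p g = j % p := h65_idx_eq_mod hcycp hg (hlep hs)
    rw [h1, h2, ZMod.natCast_mod]
  -- the standard generator
  have hB0 : B ≠ 0 := by
    intro h0
    apply hB.2.1
    rw [h0, zero_pow hp.ne_zero]
  obtain ⟨hκ1, hκc, -⟩ := h48f_kumBasic q p K ζ B hζK hζ hB0 hB.1
  have hgen : IsGen p K ζ (acup (kum p ζ B) (fun g => (cycIdx (Kur K p) φ p g : ZMod p))) :=
    ⟨B, φ, hB, hφ, rfl⟩
  obtain ⟨-, -, hnot⟩ := (h48f_b0Gen q p K ζ hζK hζ).2 _ hgen
  intro hcoh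
  apply hnot
  obtain ⟨f, hfc, hf⟩ := hcoh
  have hidxc : Cont1 K (fun g => ((cycIdx (Kur K p) φ p g : ℕ) : ZMod p)) :=
    h65t_cont1_map (fun i : ℕ => (i : ZMod p)) (h65t_cont1_idx hcycp)
  refine ⟨fun g => -((χ φ)⁻¹ * f g) - (cycIdx (Kur K p) φ p g : ZMod p) * kum p ζ B g, ?_, ?_⟩
  · exact h65t_cont1_map2 (fun a b : ZMod p => -((χ φ)⁻¹ * a) - b) (ha := hfc)
      (hb := h65t_cont1_map2 (fun a b : ZMod p => a * b) hidxc hκc)
  · intro g hg h hh
    have e1 := hf g hg h hh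
    have e2 := key g hg
    have e3 := h55g_cycIdx_mul hcycp hg hh
    have e4 := hκ1 g hg h hh
    simp only [acup, acob, Pi.zero_apply, zero_add] at e1 ⊢
    rw [e3, e4]
    rw [e2] at e1
    have ha : χ φ * (χ φ)⁻¹ = 1 := mul_inv_cancel₀ hχφ
    linear_combination (-(χ φ)⁻¹) * e1 +
      ((cycIdx (Kur K p) φ p g : ZMod p) * kum p ζ B h) * ha

theorem h65t_card_coe {α : Type*} (s : Finset α) :
    Nat.card ((s : Finset α) : Set α) = s.card := by
  simp

/-- An element of `G_K` which acts as `w ↦ w ^ q` on the roots of unity of order prime to `q`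
is a Frobenius element of `K` (so the residue field of `K` has `q` elements). -/
theorem h65t_isFrob_of_frobQ (K : LF q) [FiniteDimensional ℚ_[q] K] (φ : Gq q)
    (hφK : φ ∈ GK K)
    (hφ : ∀ (w : Om q) (m : ℕ), 0 < m → ¬ q ∣ m → w ^ m = 1 → φ w = w ^ q) :
    resCard K = q ∧ IsFrob K φ := by
  have hq : q.Prime := Fact.out
  obtain ⟨hfin, ⟨f, hf, hN⟩, -, -, -⟩ := h48f_lfTeich q K
  -- every element of `muPrime K` is a root of `X ^ (q - 1) - 1`
  have hsub : muPrime K ⊆ ((Polynomial.nthRootsFinset (q - 1) (1 : Om q) : Finset (Om q)) :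
      Set (Om q)) := by
    rintro w ⟨hwK, m, hm, hqm, hw⟩
    have h1 : φ w = w ^ q := hφ w m hm hqm hw
    have h2 : φ w = w := hφK ⟨w, hwK⟩
    have hw0 : w ≠ 0 := by
      rintro rfl
      rw [zero_pow hm.ne'] at hw
      exact zero_ne_one hw
    have h3 : w ^ (q - 1) * w = 1 * w := by
      rw [← pow_succ, Nat.sub_add_cancel hq.one_le, ← h1, h2, one_mul]
    have h4 : w ^ (q - 1) = 1 := mul_right_cancel₀ hw0 h3
    rw [Finset.mem_coe, Polynomial.mem_nthRootsFinset (by have := hq.two_le; omega)]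
    exact h4
  have hcard : Nat.card (muPrime K) ≤ q - 1 := by
    have h1 : Nat.card (muPrime K) ≤
        Nat.card ((Polynomial.nthRootsFinset (q - 1) (1 : Om q) : Finset (Om q)) :
          Set (Om q)) := Nat.card_mono (Finset.finite_toSet _) hsub
    have h2 : Nat.card ((Polynomial.nthRootsFinset (q - 1) (1 : Om q) : Finset (Om q)) :
          Set (Om q)) = (Polynomial.nthRootsFinset (q - 1) (1 : Om q)).card :=
      h65t_card_coe _
    have h3 : (Polynomial.nthRootsFinset (q - 1) (1 : Om q)).card ≤ q - 1 := by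
      unfold Polynomial.nthRootsFinset
      exact le_trans (Multiset.toFinset_card_le _) (Polynomial.card_nthRoots _ _)
    omega
  have hres : resCard K = q := by
    have h1 : resCard K = Nat.card (muPrime K) + 1 := rfl
    have h2 : q ≤ q ^ f := by
      calc q = q ^ 1 := (pow_one q).symm
        _ ≤ q ^ f := Nat.pow_le_pow_right hq.pos hf
    have h3 := hq.two_le
    omega
  refine ⟨hres, hφK, fun w m hm hqm hw => ?_⟩
  rw [hres]
  exact hφ w m hm hqm hw

end Fermat.Agent.PT.Loc
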