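import Mathlib
import Fermat.Agent.PT.Glob.KIface5
import Fermat.Agent.PT.Bridge.RelDictDU
import Fermat.Agent.PT.Bridge.Frob
import Fermat.Agent.PT.Glob.Dict.H10Top
import Fermat.Agent.PT.Glob.K.H65TameLoc

/-!
# W3-PT / PT-GLOB-K (d'), leaf K-DP-TAMEW (helper65): the tame symbol, frame form

`h65t_kTameW : KTameW`.
-/

set_option autoImplicit false
set_option linter.style.haveILetI false
set_option linter.unusedSectionVars false

open ExtCitation NumberField IsDedekindDomain MulAction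
open scoped Pointwise

namespace Fermat.Agent.PT.Glob

open Fermat.Agent.PT Fermat.Agent.PT.Shap Fermat.Agent.Bridge Fermat.Agent.PT.Bridge
  Fermat.Agent.PT.Loc

noncomputable section

attribute [local instance] locActQ
attribute [local instance] h23r_factPrimes

variable {U : Subgroup GQ}

/-- the inclusion of the local group at `w` into the local Galois group. -/
def h65t_incl (u : USD U) (q : Nat.Primes) (w : (u.od q).W) : ↥(VW u q w) →* Gq (q : ℕ) :=
  Subgroup.subtype (VW u q w)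

theorem h65t_levW (u : USD U) (q : Nat.Primes) (w : (u.od q).W) :
    levW u q w = h23r_lev (h65t_incl u q w) := rfl

/-- `U` open for the finite levels: `U` is the group of the finite extension `fieldOf U`. -/
theorem h65t_fieldOf {p : ℕ} [Fact p.Prime] (hadm : AdmU p U) :
    FiniteDimensional ℚ (fieldOf U) ∧ (fieldOf U).fixingSubgroup = U := by
  obtain ⟨L, hL, hU⟩ := (h23b_isOpen_levFin_iff U).mp hadm.isOpen
  haveI := h23b_isGalois_Qb
  have hf : fieldOf U = L := by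
    rw [hU]
    exact InfiniteGalois.fixedField_fixingSubgroup L
  rw [hf]
  exact ⟨hL, hU.symm⟩

/-! ## Uniformizers -/

section Unif

variable (q : ℕ) [Fact q.Prime]

theorem h65t_norm_eq_of_sub_lt {a b : Om q} (h : ‖a - b‖ < ‖b‖) : ‖a‖ = ‖b‖ := by
  have h1 : a = (a - b) + b := by ring
  have h2 := IsUltrametricDist.norm_add_eq_max_of_norm_ne_norm (ne_of_lt h)
  rw [← h1] at h2
  rw [h2]
  exact max_eq_right (le_of_lt h)

/-- the embedding of `L` into `Om q` twisted by `x`. -/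
def h65t_emb (L : IntermediateField ℚ Qb) (x : GQ) : ↥L →+* Om q :=
  ((padicEmbedding q).toRingHom.comp (x : Qb ≃ₐ[ℚ] Qb).toAlgHom.toRingHom).comp
    L.val.toRingHom

theorem h65t_emb_apply (L : IntermediateField ℚ Qb) (x : GQ) (l : ↥L) :
    h65t_emb q L x l = padicEmbedding q (x (l : Qb)) := rfl

theorem h65t_localField_eq (L : IntermediateField ℚ Qb) (x : GQ) :
    h23b_localField q (L.map (x : Qb →ₐ[ℚ] Qb)) = h10d_loc (h65t_emb q L x) := by
  unfold h23b_localField h10d_loc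
  congr 1
  ext y
  constructor
  · rintro ⟨z, ⟨l, hl, rfl⟩, rfl⟩
    exact ⟨⟨l, hl⟩, rfl⟩
  · rintro ⟨l, rfl⟩
    exact ⟨x (l : Qb), ⟨(l : Qb), l.2, rfl⟩, rfl⟩

/-- a uniformizer of `L` at the place `x⁻¹ • padicPlace q` gives a uniformizer of the local
field `ℚ_q(ι (x L))`. -/
theorem h65t_isUnif (L : IntermediateField ℚ Qb) [FiniteDimensional ℚ L] (x : GQ) (ϖ : Qb)
    (h : IsUnifAt L (x⁻¹ • padicPlace q) ϖ) :
    IsUnif (h23b_localField q (L.map (x : Qb →ₐ[ℚ] Qb))) (padicEmbedding q (x ϖ)) := by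
  obtain ⟨hϖL, hϖ0, hϖn, hmax⟩ := h
  have hne : padicEmbedding q (x ϖ) ≠ 0 := by
    intro h0
    apply hϖ0
    have h1 : x ϖ = 0 := (h23b_padicEmbedding_injective q) (by rw [h0, map_zero])
    exact (map_eq_zero_iff _ (AlgEquiv.injective x)).1 h1
  refine ⟨h23b_padicEmbedding_mem_localField q ⟨ϖ, hϖL, rfl⟩, hne,
    (h23b_mem_nonunits_conj_iff q x ϖ).1 hϖn, fun y hy hy1 => ?_⟩
  by_cases hy0 : y = 0
  · rw [hy0, norm_zero]
    exact norm_nonneg _
  haveI : NumberField ↥L := { to_charZero := inferInstance, to_finiteDimensional := inferInstance }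
  rw [h65t_localField_eq] at hy
  obtain ⟨l, hl⟩ := h10d_dense (h65t_emb q L x) hy (norm_pos_iff.2 hy0)
  have hnorm : ‖padicEmbedding q (x (l : Qb))‖ = ‖y‖ := by
    rw [← h65t_emb_apply]
    exact h65t_norm_eq_of_sub_lt q hl
  have hl1 : (l : Qb) ∈ (x⁻¹ • padicPlace q).nonunits := by
    rw [h23b_mem_nonunits_conj_iff, hnorm]
    exact hy1
  have h2 := (h23b_mem_conj_iff q x _).1 (hmax l l.2 hl1)
  rw [map_div₀, map_div₀, norm_div, hnorm] at h2
  exact (div_le_one (norm_pos_iff.2 hne)).1 h2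

end Unif

/-! ## Kummer characters -/

section Kum

variable (q : ℕ) [Fact q.Prime] (p : ℕ) [Fact p.Prime]

theorem h65t_kum_iff (x : GQ) (ζ Pr : Qb) (h : Gq q) (k : ZMod p) :
    (x⁻¹ * localGaloisToGlobal q h * x) Pr = ζ ^ k.val * Pr ↔
      h (padicEmbedding q (x Pr)) = padicEmbedding q (x ζ) ^ k.val * padicEmbedding q (x Pr) := by
  rw [← padicEmbedding_localGaloisToGlobal, ← map_pow, ← map_pow, ← map_mul, ← map_mul]
  rw [(h23b_padicEmbedding_injective q).eq_iff]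
  rw [AlgEquiv.mul_apply, AlgEquiv.mul_apply]
  constructor
  · intro e
    have := congrArg x e
    rwa [← AlgEquiv.mul_apply, mul_inv_cancel, AlgEquiv.one_apply] at this
  · intro e
    rw [e, ← AlgEquiv.mul_apply, inv_mul_cancel, AlgEquiv.one_apply]

/-- the global Kummer function on a conjugated local element is the local Kummer function. -/
theorem h65t_kum_eq (x : GQ) (ζ Pr : Qb) (hζ : IsPrimitiveRoot ζ p) (hPr : Pr ≠ 0)
    (h : Gq q) :
    kumQ p ζ Pr (x⁻¹ * localGaloisToGlobal q h * x) =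
      Loc.kum p (padicEmbedding q (x ζ)) (padicEmbedding q (x Pr)) h := by
  have hζ' : IsPrimitiveRoot (padicEmbedding q (x ζ)) p :=
    (hζ.map_of_injective (AlgEquiv.injective x)).map_of_injective
      (h23b_padicEmbedding_injective q)
  have hB : padicEmbedding q (x Pr) ≠ 0 := by
    intro h0
    apply hPr
    have h1 : x Pr = 0 := (h23b_padicEmbedding_injective q) (by rw [h0, map_zero])
    exact (map_eq_zero_iff _ (AlgEquiv.injective x)).1 h1
  unfold kumQ Loc.kum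
  by_cases hex : ∃ k : ZMod p, (x⁻¹ * localGaloisToGlobal q h * x) Pr = ζ ^ k.val * Pr
  · have hex' : ∃ k : ZMod p, h (padicEmbedding q (x Pr)) =
        padicEmbedding q (x ζ) ^ k.val * padicEmbedding q (x Pr) := by
      obtain ⟨k, hk⟩ := hex
      exact ⟨k, (h65t_kum_iff q p x ζ Pr h k).1 hk⟩
    rw [dif_pos hex, dif_pos hex']
    have h1 := (h65t_kum_iff q p x ζ Pr h _).1 hex.choose_spec
    have h2 := hex'.choose_spec
    exact h79k_pow_val_injective hζ' (mul_right_cancel₀ hB (h1.symm.trans h2))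
  · have hex' : ¬ ∃ k : ZMod p, h (padicEmbedding q (x Pr)) =
        padicEmbedding q (x ζ) ^ k.val * padicEmbedding q (x Pr) := by
      rintro ⟨k, hk⟩
      exact hex ⟨k, (h65t_kum_iff q p x ζ Pr h k).2 hk⟩
    rw [dif_neg hex, dif_neg hex']

end Kum

/-! ## The tame symbol -/

/-- **K-DP-TAMEW.** -/
theorem h65t_kTameW : KTameW := by
  intro p _ U _ u hadm q w ζ Pr χ φ hqp hζ hunif hχ hχI hφ hχφ hmem
  have hp : p.Prime := Fact.out
  obtain ⟨hLfin, hU⟩ := h65t_fieldOf hadm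
  haveI := hLfin
  have hVK : (VW u q w : Subgroup (Gq (q : ℕ))) = GK (h23r_fieldAt q U u w.1) :=
    h23r_stabilizer_eq_GK q U hU u w.1
  have hemb : h23r_IsEmb (h65t_incl u q w) (h23r_fieldAt q U u w.1) :=
    h23r_isEmb_subtype_of_eq _ _ hVK
  haveI : FiniteDimensional ℚ ((fieldOf U).map ((u.sec.gsec w.1 : GQ) : Qb →ₐ[ℚ] Qb)) :=
    LinearEquiv.finiteDimensional
      (IntermediateField.equivMap (fieldOf U)
        ((u.sec.gsec w.1 : GQ) : Qb →ₐ[ℚ] Qb)).toLinearEquiv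
  haveI hKfin : FiniteDimensional ℚ_[(q : ℕ)] (h23r_fieldAt q U u w.1) :=
    h23b_finiteDimensional_localField (q : ℕ) _
  have hζL : ζ ∈ fieldOf U :=
    (h23b_cycloChar_trivial_iff p (fieldOf U) hζ).1 (by rw [hU]; exact hadm.chi)
  have hζ'K : padicEmbedding (q : ℕ) (u.sec.gsec w.1 ζ) ∈ h23r_fieldAt q U u w.1 :=
    h23b_padicEmbedding_mem_localField (q : ℕ) ⟨ζ, hζL, rfl⟩
  have hζ' : IsPrimitiveRoot (padicEmbedding (q : ℕ) (u.sec.gsec w.1 ζ)) p :=
    (hζ.map_of_injective (AlgEquiv.injective (u.sec.gsec w.1))).map_of_injective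
      (h23b_padicEmbedding_injective (q : ℕ))
  have hPr0 : Pr ≠ 0 := by
    intro h0
    apply hunif.2.1
    rw [h0, zero_pow hp.ne_zero]
  have hBunif : IsUnif (h23r_fieldAt q U u w.1)
      (padicEmbedding (q : ℕ) (u.sec.gsec w.1 Pr) ^ p) := by
    have h1 := h65t_isUnif (q : ℕ) (fieldOf U) (u.sec.gsec w.1) (Pr ^ p) hunif
    rwa [map_pow, map_pow] at h1
  have hφ' := (h23b_isFrobeniusAt_iff (q : ℕ) (h65t_incl u q w φ)).1 hφ
  have hφK : (h65t_incl u q w φ) ∈ GK (h23r_fieldAt q U u w.1) := by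
    rw [← hVK]
    exact φ.2
  obtain ⟨-, hFrob⟩ := h65t_isFrob_of_frobQ (h23r_fieldAt q U u w.1) (h65t_incl u q w φ) hφK hφ'
  have hρ : ∀ (h : ↥(VW u q w)) (v : ZMod p), trivW p u q w h v = v := fun _ _ => rfl
  obtain ⟨χ', hχ'⟩ := h23r_exists_pb1 hemb (trivW p u q w) hρ χ
  have hZ1 : ACoc1 (h23r_fieldAt q U u w.1) χ' ∧ Cont1 (h23r_fieldAt q U u w.1) χ' := by
    refine (h23r_mem_Z1_iff hemb (trivW p u q w) hρ χ').1 ?_
    rw [hχ']
    exact hχ
  obtain ⟨hχ1, hχc⟩ := hZ1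
  have hI : ∀ i, IsInert (h23r_fieldAt q U u w.1) i → χ' i = 0 := by
    intro i hi
    obtain ⟨hiK, hiI⟩ := (h23b_isInert_iff (q : ℕ) _ i).1 hi
    have hiV : i ∈ (VW u q w : Subgroup (Gq (q : ℕ))) := by
      rw [hVK]
      exact hiK
    have h1 : χ ⟨i, hiV⟩ = 0 := hχI ⟨i, hiV⟩ hiI
    rw [← hχ'] at h1
    exact h1
  have hφne : χ' (h65t_incl u q w φ) ≠ 0 := by
    rw [← hχ'] at hχφ
    exact hχφ
  have hloc := h65t_tame_loc p (h23r_fieldAt q U u w.1)
    (padicEmbedding (q : ℕ) (u.sec.gsec w.1 ζ)) (padicEmbedding (q : ℕ) (u.sec.gsec w.1 Pr))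
    χ' (h65t_incl u q w φ) hζ'K hζ' hBunif hFrob hχ1 hχc hI hφne
  apply hloc
  rw [← h23r_mem_B2_iff hemb (trivW p u q w) hρ]
  rw [← h23r_cup11_pb (trivW p u q w) hρ, hχ']
  have hκ : h23r_pb1 (h65t_incl u q w)
      (Loc.kum p (padicEmbedding (q : ℕ) (u.sec.gsec w.1 ζ))
        (padicEmbedding (q : ℕ) (u.sec.gsec w.1 Pr))) =
      fun h => kumQ p ζ Pr (locW u q w h) := by
    funext h
    exact (h65t_kum_eq (q : ℕ) p (u.sec.gsec w.1) ζ Pr hζ hPr0 (h65t_incl u q w h)).symm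
  rw [hκ]
  exact hmem

end

end Fermat.Agent.PT.Glob
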