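import Mathlib
import Fermat.Agent.PT.Arith.Glue
import Fermat.Agent.PT.Glob.KIface5

/-!
# W3-PT / PT-GLOB-K, leaf K-DP-PAIR (helper69): the `S`-variation formula

`h69p_kPairFormula : KPairFormula` (`PT/Glob/KIface5.lean`):
for `z = (a, b) ∈ ZC¹` and a cochain `ζ'` of level `S' = insert q0 S` with `y = d¹ζ' ∈ ZШ²_S`,
there is `ε` of level `S` with `ω = ε + a ∪ ζ'` a `2`-cocycle of level `S'` and
`⟨z, y⟩ = ∑_{w ∣ q0} inv_w (res_w ω)`.

Proof: `a ∪ y` is a `3`-cocycle of level `S`, hence `= d²ε` (`H³ = 0`, `BrVV`); Tate's formula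
(`h98a_tate`) gives `⟨z, y⟩ = - ∑_{q ∈ S} ∑_w inv_w (res_w ε)` (the local components of `y` are
coboundaries, killed by the local invariants); `ω` is a cocycle of level `S'` by the Leibniz
rule, so the reciprocity law at level `S'` (a trace from `h98a_exists_tr`, restricted to `U`)
gives `∑_{q ∈ S'} ∑_w inv_w (res_w ω) = 0`; finally `res_w ω = res_w ε` for `q ∈ S` since `a`
is locally trivial there.
-/

set_option autoImplicit false

open ExtCitation NumberField IsDedekindDomain MulAction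

namespace Fermat.Agent.PT

/-! ## Pure algebra: trivial coefficients -/

section Alg

variable {k : Type} [Field k] {G : Type} [Group G]

lemma h69p_lc_cup11 {L : Lev G} {a x : G → k} (ha : IsLC1 L a) (hx : IsLC1 L x) :
    IsLC2 L (cup11 (LinearMap.mul k k) (Representation.trivial k G k) a x) := by
  obtain ⟨Na, hNa, haN⟩ := ha
  obtain ⟨Nx, hNx, hxN⟩ := hx
  obtain ⟨N, hN, hle⟩ := L.directed Na hNa Nx hNx
  refine ⟨N, hN, fun g g' s s' hs hs' => ?_⟩
  simp only [cup11_apply, Representation.trivial_apply]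
  rw [haN g s (hle hs).1, hxN g' s' (hle hs').2]

lemma h69p_lc_cup12 {L : Lev G} {a : G → k} {y : G × G → k} (ha : IsLC1 L a)
    (hy : IsLC2 L y) :
    IsLC3 L (cup12 (LinearMap.mul k k) (Representation.trivial k G k) a y) := by
  obtain ⟨Na, hNa, haN⟩ := ha
  obtain ⟨Ny, hNy, hyN⟩ := hy
  obtain ⟨N, hN, hle⟩ := L.directed Na hNa Ny hNy
  refine ⟨N, hN, fun g g' g'' s s' s'' hs hs' hs'' => ?_⟩
  simp only [cup12_apply, Representation.trivial_apply]
  rw [haN g s (hle hs).1, hyN g' g'' s' s'' (hle hs').2 (hle hs'').2]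

lemma h69p_d3_cup12 {a : G → k} {y : G × G → k}
    (ha : d1 (Representation.trivial k G k) a = 0)
    (hy : d2 (Representation.trivial k G k) y = 0) :
    d3 (Representation.trivial k G k)
      (cup12 (LinearMap.mul k k) (Representation.trivial k G k) a y) = 0 := by
  funext ⟨g, h, j, l⟩
  have ha' := congrFun ha (g, h)
  have hy' := congrFun hy (h, j, l)
  simp only [d1_apply, d2_apply, Pi.zero_apply, Representation.trivial_apply] at ha' hy'
  simp only [d3_apply, cup12_apply, Representation.trivial_apply, LinearMap.mul_apply',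
    Pi.zero_apply]
  have h2 : a (g * h) = a h + a g := by
    linear_combination (-1 : k) * ha'
  rw [h2]
  linear_combination (-(a g)) * hy'

lemma h69p_d2_cup11 {a : G → k} (ha : d1 (Representation.trivial k G k) a = 0) (x : G → k) :
    d2 (Representation.trivial k G k)
        (cup11 (LinearMap.mul k k) (Representation.trivial k G k) a x)
      = - cup12 (LinearMap.mul k k) (Representation.trivial k G k) a
          (d1 (Representation.trivial k G k) x) := by
  funext ⟨g, h, j⟩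
  have ha' := congrFun ha (g, h)
  simp only [d1_apply, Pi.zero_apply, Representation.trivial_apply] at ha'
  simp only [d2_apply, cup11_apply, cup12_apply, d1_apply, Representation.trivial_apply,
    LinearMap.mul_apply', Pi.neg_apply]
  have h2 : a (g * h) = a h + a g := by
    linear_combination (-1 : k) * ha'
  rw [h2]
  ring

/-- `a ∪ x` restricts to zero along a homomorphism on which `a` vanishes. -/
lemma h69p_res2_add_cup11 {H : Type} [Group H] (f : H →* G) (ε : G × G → k) (a x : G → k)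
    (h0 : ∀ h, a (f h) = 0) :
    res2 k k f (ε + cup11 (LinearMap.mul k k) (Representation.trivial k G k) a x)
      = res2 k k f ε := by
  funext ⟨h, h'⟩
  rw [res2_apply, res2_apply, Pi.add_apply, cup11_apply, h0, map_zero, LinearMap.zero_apply,
    add_zero]

end Alg

/-! ## Pure algebra: Tate's formula and reciprocity for a datum with trivial character -/

section Dat

variable {k : Type} [Field k] (D : Datum k)

/-- Tate's formula for a class of `Ш²` (trivial coefficients, trivial character, `H³ = 0`,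
local invariants killing the coboundaries). -/
theorem h69p_tate (hχ : chiRep D.chi = Representation.trivial k D.G k)
    (tr : D.CC3 k →ₗ[k] k) (htr : D.TrOK tr)
    (hV : H3Vanishes D.lev (Representation.trivial k D.G k))
    (hinv : ∀ v, ∀ c ∈ B2 (D.levH v) (D.repAt (Representation.trivial k D.G k) v),
      D.invAt tr v c = 0)
    (z : D.CC1 k) (hz : z ∈ D.ZC1 (Representation.trivial k D.G k))
    (y : D.G × D.G → k) (hy : y ∈ D.ZSha2 (Representation.trivial k D.G k)) :
    ∃ ε : D.G × D.G → k, IsLC2 D.lev ε ∧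
      d2 (Representation.trivial k D.G k) ε
        = cup12 (LinearMap.mul k k) (Representation.trivial k D.G k) z.1 y ∧
      D.pair1 (Representation.trivial k D.G k) tr (LinearMap.mul k k) z y
        = - ∑ v, D.invAt tr v (res2 k k (D.loc v) ε) := by
  obtain ⟨hz0, hz1⟩ := Submodule.mem_inf.1 hz
  have hz0' : D.coneD1 (Representation.trivial k D.G k) z = 0 := hz0
  rw [Datum.coneD1_apply, Prod.mk_eq_zero] at hz0'
  have ha : d1 (Representation.trivial k D.G k) z.1 = 0 := hz0'.1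
  have haL : IsLC1 D.lev z.1 := hz1.1
  obtain ⟨hyZ, hyB⟩ := Submodule.mem_inf.1 hy
  rw [mem_Z2] at hyZ
  have hc : cup12 (LinearMap.mul k k) (Representation.trivial k D.G k) z.1 y
      ∈ Z3 D.lev (Representation.trivial k D.G k) := by
    rw [mem_Z3]
    exact ⟨h69p_d3_cup12 ha hyZ.1, h69p_lc_cup12 haL hyZ.2⟩
  obtain ⟨ε, hε, hd⟩ := (mem_B3 _ _ _).1 (hV hc)
  refine ⟨ε, hε, hd, ?_⟩
  have hd' : d2 (chiRep D.chi) ε
      = cup12 (LinearMap.mul k k) (Representation.trivial k D.G k) z.1 y := by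
    rw [hχ]
    exact hd
  rw [h98a_tate D tr htr (Representation.trivial k D.G k) (LinearMap.mul k k) z y ε hε hd',
    ← Finset.sum_neg_distrib]
  refine Finset.sum_congr rfl (fun v _ => ?_)
  rw [map_sub]
  have h1 : cup02 (LinearMap.mul k k) (z.2 v) (res2 k k (D.loc v) y)
      = (z.2 v) • res2 k k (D.loc v) y := by
    funext x
    simp [cup02]
  have h2 : res2 k k (D.loc v) y
      ∈ B2 (D.levH v) (D.repAt (Representation.trivial k D.G k) v) := by
    have := (Submodule.mem_iInf _).1 hyB v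
    exact this
  rw [h1, hinv v _ (Submodule.smul_mem _ _ h2), zero_sub]

/-- The reciprocity law for the cocycles (trivial character). -/
theorem h69p_rec (hχ : chiRep D.chi = Representation.trivial k D.G k)
    (tr : D.CC3 k →ₗ[k] k) (htr : D.TrOK tr)
    (ω : D.G × D.G → k) (hω : ω ∈ Z2 D.lev (Representation.trivial k D.G k)) :
    ∑ v, D.invAt tr v (res2 k k (D.loc v) ω) = 0 := by
  rw [mem_Z2] at hω
  have hB : D.coneD2 (chiRep D.chi) ((ω, fun _ => 0) : D.CC2 k) ∈ D.BC3 (chiRep D.chi) := by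
    refine ⟨(ω, fun _ => 0), ⟨hω.2, ?_⟩, rfl⟩
    intro v _
    exact (lc1 (D.levH v) k k).zero_mem
  have h0 := htr _ hB
  rw [Datum.coneD2_apply] at h0
  have h1 : ((d2 (chiRep D.chi) ω,
        fun v => res2 k k (D.loc v) ω
          - d1 (D.repAt (chiRep D.chi) v) ((fun _ => 0 : ∀ v : D.P, D.H v → k) v)) : D.CC3 k)
      = ((0, fun v => res2 k k (D.loc v) ω) : D.CC3 k) := by
    refine Prod.ext ?_ ?_
    · rw [hχ]
      exact hω.1
    · funext v
      simp
  rw [h1, h98a_tr_snd] at h0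
  exact h0

/-- The first component of a cone `1`-cocycle with trivial coefficients is locally trivial. -/
lemma h69p_res_zero (z : D.CC1 k) (hz : z ∈ D.ZC1 (Representation.trivial k D.G k)) (v : D.P)
    (h : D.H v) : z.1 (D.loc v h) = 0 := by
  have hz0 : D.coneD1 (Representation.trivial k D.G k) z = 0 := hz.1
  rw [Datum.coneD1_apply, Prod.mk_eq_zero] at hz0
  have := congrFun (congrFun hz0.2 v) h
  simpa [Datum.repAt] using this

end Dat

end Fermat.Agent.PT

namespace Fermat.Agent.PT.Glob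

open Fermat.Agent.PT Fermat.Agent.PT.Shap Fermat.Agent.Bridge

local notation "GQ₀" => (AlgebraicClosure ℚ ≃ₐ[ℚ] AlgebraicClosure ℚ)

noncomputable section

attribute [local instance] locActQ

/-! ## Monotonicity in `S` -/

lemma h69p_levQ_mono {S S' : Finset Nat.Primes} (h : S ⊆ S') :
    (levQ S).sets ⊆ (levQ S').sets := by
  rintro N ⟨F, hF, hn, rfl⟩
  exact ⟨F, hF.mono h, hn, rfl⟩

lemma h69p_isLC1_mono {S S' : Finset Nat.Primes} (h : S ⊆ S') {U : Subgroup GQ₀} {X : Type*}
    {f : ↥U → X} (hf : IsLC1 (levU S U) f) : IsLC1 (levU S' U) f := by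
  obtain ⟨N, ⟨N0, hN0, rfl⟩, hN⟩ := hf
  exact ⟨_, ⟨N0, h69p_levQ_mono h hN0, rfl⟩, hN⟩

lemma h69p_isLC2_mono {S S' : Finset Nat.Primes} (h : S ⊆ S') {U : Subgroup GQ₀} {X : Type*}
    {f : ↥U × ↥U → X} (hf : IsLC2 (levU S U) f) : IsLC2 (levU S' U) f := by
  obtain ⟨N, ⟨N0, hN0, rfl⟩, hN⟩ := hf
  exact ⟨_, ⟨N0, h69p_levQ_mono h hN0, rfl⟩, hN⟩

variable {p : ℕ} [Fact p.Prime]

lemma h69p_adm_mono {S S' : Finset Nat.Primes} (h : S ⊆ S') {U : Subgroup GQ₀}
    (hA : Adm p S U) : Adm p S' U := by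
  obtain ⟨N, hN, hle⟩ := hA.isOpen
  exact ⟨hA.odd, h hA.mem, ⟨N, h69p_levQ_mono h hN, hle⟩, hA.chi⟩

lemma h69p_admU {S : Finset Nat.Primes} {U : Subgroup GQ₀} (hA : Adm p S U) : AdmU p U := by
  obtain ⟨N, ⟨F, hF, hn, rfl⟩, hle⟩ := hA.isOpen
  exact ⟨⟨_, ⟨F, hF.1, hn, rfl⟩, hle⟩, hA.chi⟩

/-- The character of `D_U` is trivial. -/
lemma h69p_chiRep (S : Finset Nat.Primes) {U : Subgroup GQ₀} [U.FiniteIndex] (u : USD U)
    (hχ : ∀ g ∈ U, cycloChar p g = 1) :
    chiRep (DU p S U u).chi = Representation.trivial (ZMod p) (DU p S U u).G (ZMod p) := by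
  ext g
  have h1 : (DU p S U u).chi g = 1 := hχ g.1 g.2
  simp [chiRep_apply, h1]

/-- The restricted trace of a trace with local invariants `inv` kills the cone coboundaries. -/
lemma h69p_trOK (hTr : h56s_ShapTrOK) (hDQ : DQGood) {S : Finset Nat.Primes}
    {U : Subgroup GQ₀} [hU : U.FiniteIndex] (u : USD U)
    (tr : (DQ p S).CC3 (ZMod p) →ₗ[ZMod p] ZMod p) (hA : Adm p S U) (htr : (DQ p S).TrOK tr) :
    (DU p S U u).TrOK (trUt S U u tr) :=
  @hTr (ZMod p) _ (DQ p S) tr (hDQ p S hA.mem) htr U hU hA.isOpen (u.sd p S)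

/-- The local invariants of `D_U` kill the local coboundaries. -/
lemma h69p_invAt_B2 {inv : InvFam p} (hKI : KInvW) (hWOK : InvWOK inv)
    {S : Finset Nat.Primes} {U : Subgroup GQ₀} [U.FiniteIndex] (u : USD U)
    (tr : (DQ p S).CC3 (ZMod p) →ₗ[ZMod p] ZMod p) (hA : Adm p S U)
    (hinv : ∀ q : (DQ p S).P, (DQ p S).invAt tr q = inv q.1)
    (v : (DU p S U u).P)
    (c : (DU p S U u).H v × (DU p S U u).H v → ZMod p)
    (hc : c ∈ B2 ((DU p S U u).levH v) ((DU p S U u).repAt (trivU p S U u) v)) :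
    (DU p S U u).invAt (trUt S U u tr) v c = 0 := by
  obtain ⟨⟨q, hq⟩, w⟩ := v
  have h1 := hKI p inv U u S tr hinv q hq w c
  have h2 : invW inv u q w c = 0 := hWOK U u (h69p_admU hA) q w c hc
  exact h1.trans h2

/-- The sum of the local invariants of `D_U` as a double sum. -/
lemma h69p_sum {inv : InvFam p} (hKI : KInvW) (hKS : KSumPlc)
    {S : Finset Nat.Primes} {U : Subgroup GQ₀} [U.FiniteIndex] (u : USD U)
    (tr : (DQ p S).CC3 (ZMod p) →ₗ[ZMod p] ZMod p)
    (hinv : ∀ q : (DQ p S).P, (DQ p S).invAt tr q = inv q.1)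
    (c : ↥U × ↥U → ZMod p) :
    ∑ v, (DU p S U u).invAt (trUt S U u tr) v (res2 (ZMod p) (ZMod p) ((DU p S U u).loc v) c)
      = ∑ q ∈ S, ∑ w, invW inv u q w (res2 (ZMod p) (ZMod p) (locW u q w) c) := by
  refine hKS p U u S (fun q w => invW inv u q w (res2 (ZMod p) (ZMod p) (locW u q w) c))
    (fun v => (DU p S U u).invAt (trUt S U u tr) v
      (res2 (ZMod p) (ZMod p) ((DU p S U u).loc v) c)) ?_
  intro q hq w
  exact hKI p inv U u S tr hinv q hq w _

/-- **K-DP-PAIR**: the `S`-variation formula. -/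
theorem h69p_kPairFormula : KPairFormula := by
  intro p _ inv hOK hRec hTr hDQ hKI hKS hWOK hVV S U _ u tr hA hT q0 hq0 z hz ζ' hζ' hy
  classical
  have hsub : S ⊆ insert q0 S := Finset.subset_insert q0 S
  have hA' : Adm p (insert q0 S) U := h69p_adm_mono hsub hA
  -- Tate's formula at level `S`
  obtain ⟨ε, hε, hd, hpair⟩ : ∃ ε : ↥U × ↥U → ZMod p, IsLC2 (levU S U) ε ∧
      d2 (trivF p U) ε
        = cup12 (LinearMap.mul (ZMod p) (ZMod p)) (trivF p U) z.1 (d1 (trivF p U) ζ') ∧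
      (DU p S U u).pair1 (trivU p S U u) (trUt S U u tr) (LinearMap.mul (ZMod p) (ZMod p)) z
          (d1 (trivF p U) ζ')
        = - ∑ v, (DU p S U u).invAt (trUt S U u tr) v
            (res2 (ZMod p) (ZMod p) ((DU p S U u).loc v) ε) :=
    h69p_tate (DU p S U u) (h69p_chiRep S u hA.chi)
    (trUt S U u tr) (h69p_trOK hTr hDQ u tr hA hT.ok) (hVV p S U u hA).2
    (fun v c hc => h69p_invAt_B2 hKI hWOK u tr hA hT.inv_eq v c hc) z hz _ hy
  -- the cocycle `ω` of level `S'`
  have hz' := Submodule.mem_inf.1 hz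
  have hz0 : (DU p S U u).coneD1 (trivU p S U u) z = 0 := hz'.1
  rw [Datum.coneD1_apply, Prod.mk_eq_zero] at hz0
  have ha : d1 (trivF p U) z.1 = 0 := hz0.1
  have haL : IsLC1 (levU S U) z.1 := hz'.2.1
  have hω : (ε + cup11 (LinearMap.mul (ZMod p) (ZMod p)) (trivF p U) z.1 ζ') ∈
      Z2 (levU (insert q0 S) U) (trivF p U) := by
    rw [mem_Z2]
    refine ⟨?_, (h69p_isLC2_mono hsub hε).add (h69p_lc_cup11 (h69p_isLC1_mono hsub haL) hζ')⟩
    rw [map_add, h69p_d2_cup11 ha]
    rw [hd, add_neg_cancel]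
  refine ⟨ε, hε, hω, ?_⟩
  -- reciprocity at level `S'`
  obtain ⟨tr', htr', hinv'⟩ := h98a_exists_tr (DQ p (insert q0 S)) (fun q => inv q.1)
    (fun q => hOK q.1) (fun a ha => hRec (insert q0 S) hA'.mem a ha)
  have hrec := h69p_rec (DU p (insert q0 S) U u) (h69p_chiRep (insert q0 S) u hA.chi)
    (trUt (insert q0 S) U u tr') (h69p_trOK hTr hDQ u tr' hA' htr')
    (ε + cup11 (LinearMap.mul (ZMod p) (ZMod p)) (trivF p U) z.1 ζ') hω
  rw [h69p_sum hKI hKS u tr' hinv', Finset.sum_insert hq0] at hrec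
  -- comparison at the places above `S`
  have hcmp : ∀ q ∈ S, ∀ w : (u.od q).W,
      res2 (ZMod p) (ZMod p) (locW u q w)
        (ε + cup11 (LinearMap.mul (ZMod p) (ZMod p)) (trivF p U) z.1 ζ')
      = res2 (ZMod p) (ZMod p) (locW u q w) ε := fun q hq w =>
    h69p_res2_add_cup11 (locW u q w) ε z.1 ζ'
      (fun h => h69p_res_zero (DU p S U u) z hz (plc u S q hq w) h)
  have h3 : ∑ q ∈ S, ∑ w, invW inv u q w (res2 (ZMod p) (ZMod p) (locW u q w)
        (ε + cup11 (LinearMap.mul (ZMod p) (ZMod p)) (trivF p U) z.1 ζ'))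
      = ∑ q ∈ S, ∑ w, invW inv u q w (res2 (ZMod p) (ZMod p) (locW u q w) ε) :=
    Finset.sum_congr rfl (fun q hq => Finset.sum_congr rfl
      (fun w _ => congrArg (invW inv u q w) (hcmp q hq w)))
  have e1 : (DU p S U u).pair1 (trivU p S U u) (trUt S U u tr)
      (LinearMap.mul (ZMod p) (ZMod p)) z (d1 (trivF p U) ζ')
      = - ∑ q ∈ S, ∑ w, invW inv u q w (res2 (ZMod p) (ZMod p) (locW u q w) ε) :=
    hpair.trans (congrArg Neg.neg (h69p_sum hKI hKS u tr hT.inv_eq ε))
  have e2 : ∑ w, invW inv u q0 w (res2 (ZMod p) (ZMod p) (locW u q0 w)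
        (ε + cup11 (LinearMap.mul (ZMod p) (ZMod p)) (trivF p U) z.1 ζ'))
      + ∑ q ∈ S, ∑ w, invW inv u q w (res2 (ZMod p) (ZMod p) (locW u q w) ε) = 0 :=
    (congrArg (fun t => ∑ w, invW inv u q0 w (res2 (ZMod p) (ZMod p) (locW u q0 w)
        (ε + cup11 (LinearMap.mul (ZMod p) (ZMod p)) (trivF p U) z.1 ζ')) + t) h3).symm.trans
      hrec
  exact e1.trans (eq_neg_of_add_eq_zero_left e2).symm

end

end Fermat.Agent.PT.Glob
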