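import Mathlib
import Fermat.Agent.PT.Glob.KIface5
import Fermat.Agent.PT.Bridge.RelDictDU

/-!
# W3-PT / PT-GLOB-K, leaf K-DP-LOCEVAL (helper72): `KLocEval`

The local evaluation at the places `w` above a prime `q0 ∉ S` of the cocycle
`ω = ε + a ∪ ζ'` (`ε`, `a` of level `S`, `ζ' = zetaP p k ξ γ` the Bockstein–Kummer cochain of
`γ`, `γ^{p^{k+1}} = α ∈ L`):

* if `α` is a unit at `w` then `inv_w (res_w ω) = 0`;
* if `α = ϖ^{p^k h'} · unit` then `inv_w (res_w ω) = h' · inv_w (a_w ∪ κ_Pr)`, `Prᵖ = ϖ`.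

Main statement: `h72e_kLocEval : KLocEval`.
-/

set_option autoImplicit false
set_option linter.style.haveILetI false

open ExtCitation NumberField IsDedekindDomain MulAction
open scoped Pointwise

namespace Fermat.Agent.PT.Glob

open Fermat.Agent.PT Fermat.Agent.PT.Shap Fermat.Agent.Bridge Fermat.Agent.PT.Bridge

local notation "GQ₀" => (AlgebraicClosure ℚ ≃ₐ[ℚ] AlgebraicClosure ℚ)

noncomputable section

attribute [local instance] locActQ

/-! ## Places and inertia -/

/-- the valuation ring of the place `w` lies over `q`. -/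
theorem h72e_plcRing_liesOver {U : Subgroup GQ₀} (u : USD U) (q : Nat.Primes)
    (w : (u.od q).W) : (plcRing u q w).LiesOverPrime (q : ℕ) := by
  haveI : Fact (q : ℕ).Prime := ⟨q.2⟩
  unfold plcRing primeLocalPlace
  exact (liesOverPrime_smul_iff _ _ _).mpr (h23b_padicPlace_liesOver (q : ℕ))

/-- the image under `locW` of the inertia subgroup of the local group at `w` lies in the inertia
group of the place `w`. -/
theorem h72e_locW_mem_inertia {U : Subgroup GQ₀} (u : USD U) (q : Nat.Primes)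
    (w : (u.od q).W) (i : ↥(VW u q w)) (hi : i ∈ IW u q w) :
    ((locW u q w i : ↥U) : GQ₀) ∈ (plcRing u q w).inertiaSubgroupIn ℚ := by
  unfold plcRing
  rw [mem_inertiaSubgroupIn_smul_iff]
  have e : ((u.sec.gsec w.1)⁻¹)⁻¹ * ((locW u q w i : ↥U) : GQ₀) * (u.sec.gsec w.1)⁻¹ =
      primeLocalToGlobal q i := by
    show ((u.sec.gsec w.1)⁻¹)⁻¹ *
      ((u.sec.gsec w.1)⁻¹ * primeLocalToGlobal q i * u.sec.gsec w.1) * (u.sec.gsec w.1)⁻¹ = _
    group
  rw [e]
  exact hi

/-- the inertia groups at the primes outside `S` are contained in `U`. -/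
theorem h72e_inertia_le {p : ℕ} [Fact p.Prime] {S : Finset Nat.Primes} {U : Subgroup GQ₀}
    (hadm : Adm p S U) (q0 : Nat.Primes) (hq0 : q0 ∉ S) (A : ValuationSubring Qb)
    (hA : A.LiesOverPrime (q0 : ℕ)) : A.inertiaSubgroupIn ℚ ≤ U := by
  have h := (h23r_isUnramifiedOutside_fieldOf hadm).2 q0 hq0 A hA
  rwa [h23r_fixingSubgroup_fieldOf hadm] at h

/-- `U` is open for the finite levels. -/
theorem h72e_admU {p : ℕ} [Fact p.Prime] {S : Finset Nat.Primes} {U : Subgroup GQ₀}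
    (hadm : Adm p S U) : AdmU p U := by
  refine ⟨?_, hadm.chi⟩
  obtain ⟨N, ⟨F, hF, hn, rfl⟩, hle⟩ := hadm.isOpen
  exact ⟨_, ⟨F, hF.1, hn, rfl⟩, hle⟩

/-! ## Level-constant cochains -/

/-- a `1`-cochain of level `S` is invariant under right multiplication by inertia at a prime
outside `S`. -/
theorem h72e_lc1_inertia {S : Finset Nat.Primes} {U : Subgroup GQ₀} {X : Type}
    (f : ↥U → X) (hf : IsLC1 (levU S U) f) (q0 : Nat.Primes) (hq0 : q0 ∉ S)
    (A : ValuationSubring Qb) (hA : A.LiesOverPrime (q0 : ℕ)) (g ι : ↥U)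
    (hι : (ι : GQ₀) ∈ A.inertiaSubgroupIn ℚ) : f (g * ι) = f g := by
  obtain ⟨_, ⟨_, ⟨F, hF, -, rfl⟩, rfl⟩, h⟩ := hf
  exact h g ι (hF.2 q0 hq0 A hA hι)

/-- a `2`-cochain of level `S` is invariant under right multiplication by inertia at a prime
outside `S`. -/
theorem h72e_lc2_inertia {S : Finset Nat.Primes} {U : Subgroup GQ₀} {X : Type}
    (f : ↥U × ↥U → X) (hf : IsLC2 (levU S U) f) (q0 : Nat.Primes) (hq0 : q0 ∉ S)
    (A : ValuationSubring Qb) (hA : A.LiesOverPrime (q0 : ℕ)) (g g' ι ι' : ↥U)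
    (hι : (ι : GQ₀) ∈ A.inertiaSubgroupIn ℚ) (hι' : (ι' : GQ₀) ∈ A.inertiaSubgroupIn ℚ) :
    f (g * ι, g' * ι') = f (g, g') := by
  obtain ⟨_, ⟨_, ⟨F, hF, -, rfl⟩, rfl⟩, h⟩ := hf
  exact h g g' ι ι' (hF.2 q0 hq0 A hA hι) (hF.2 q0 hq0 A hA hι')

/-- the elements of the local group at `w` which are mapped into a finite normal level. -/
theorem h72e_locW_mem_level {U : Subgroup GQ₀} (u : USD U) (q : Nat.Primes) (w : (u.od q).W)
    (F : IntermediateField ℚ Qb) [FiniteDimensional ℚ F] (hn : Normal ℚ F)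
    (s : ↥(VW u q w)) (hs : primeLocalToGlobal q s ∈ F.fixingSubgroup) :
    ((locW u q w s : ↥U) : GQ₀) ∈ F.fixingSubgroup := by
  haveI := (h23b_fixingSubgroup_good F hn).1
  have h := (inferInstance : F.fixingSubgroup.Normal).conj_mem _ hs (u.sec.gsec w.1)⁻¹
  rw [inv_inv] at h
  exact h

/-- the level of the local group at `w` attached to a finite normal extension. -/
theorem h72e_level_mem {U : Subgroup GQ₀} (u : USD U) (q : Nat.Primes) (w : (u.od q).W)
    (F : IntermediateField ℚ Qb) (hF : FiniteDimensional ℚ F) (hn : Normal ℚ F) :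
    ((F.fixingSubgroup.comap (primeLocalToGlobal q)).comap (VW u q w).subtype) ∈
      (levW u q w).sets :=
  ⟨F.fixingSubgroup.comap (primeLocalToGlobal q), ⟨F.fixingSubgroup, ⟨F, hF, hn, rfl⟩, rfl⟩, rfl⟩

/-- restriction to the local group at `w` of a level-constant `1`-cochain of `U`. -/
theorem h72e_isLC1_res {S : Finset Nat.Primes} {U : Subgroup GQ₀} (u : USD U) (q : Nat.Primes)
    (w : (u.od q).W) {X : Type} (f : ↥U → X) (hf : IsLC1 (levU S U) f) :
    IsLC1 (levW u q w) (fun h => f (locW u q w h)) := by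
  obtain ⟨_, ⟨_, ⟨F, hF, hn, rfl⟩, rfl⟩, h⟩ := hf
  haveI := hF.1
  refine ⟨_, h72e_level_mem u q w F hF.1 hn, fun g s hs => ?_⟩
  show f (locW u q w (g * s)) = f (locW u q w g)
  rw [map_mul]
  exact h _ _ (h72e_locW_mem_level u q w F hn s hs)

/-- restriction to the local group at `w` of a level-constant `2`-cochain of `U`. -/
theorem h72e_isLC2_res {S : Finset Nat.Primes} {U : Subgroup GQ₀} (u : USD U) (q : Nat.Primes)
    (w : (u.od q).W) {X : Type} (f : ↥U × ↥U → X) (hf : IsLC2 (levU S U) f) :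
    IsLC2 (levW u q w) (fun h => f (locW u q w h.1, locW u q w h.2)) := by
  obtain ⟨_, ⟨_, ⟨F, hF, hn, rfl⟩, rfl⟩, h⟩ := hf
  haveI := hF.1
  refine ⟨_, h72e_level_mem u q w F hF.1 hn, fun g g' s s' hs hs' => ?_⟩
  show f (locW u q w (g * s), locW u q w (g' * s')) = f (locW u q w g, locW u q w g')
  rw [map_mul, map_mul]
  exact h _ _ _ _ (h72e_locW_mem_level u q w F hn s hs) (h72e_locW_mem_level u q w F hn s' hs')

/-- restriction of a `2`-cocycle (trivial coefficients) is a `2`-cocycle. -/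
theorem h72e_res2_mem_Z2 (p : ℕ) [Fact p.Prime] {S : Finset Nat.Primes} {U : Subgroup GQ₀}
    (u : USD U) (q : Nat.Primes) (w : (u.od q).W) (c : ↥U × ↥U → ZMod p)
    (hc : c ∈ Z2 (levU S U) (trivF p U)) :
    res2 (ZMod p) (ZMod p) (locW u q w) c ∈ Z2 (levW u q w) (trivW p u q w) := by
  obtain ⟨hd, hlc⟩ := (mem_Z2 _ _ _).mp hc
  refine (mem_Z2 _ _ _).mpr ⟨?_, h72e_isLC2_res u q w c hlc⟩
  funext x
  obtain ⟨g, h, j⟩ := x
  have e := congrFun hd (locW u q w g, locW u q w h, locW u q w j)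
  simp only [d2_apply, Pi.zero_apply, Representation.trivial_apply,
    res2_apply, map_mul] at e ⊢
  exact e

/-! ## Kummer functions -/

/-- the Kummer function vanishes at an automorphism fixing `B`. -/
theorem h72e_kumQ_eq_zero (p : ℕ) [Fact p.Prime] (ζ B : Qb) (hζ : IsPrimitiveRoot ζ p)
    (hB : B ≠ 0) (g : GQ₀) (hg : g B = B) : kumQ p ζ B g = 0 := by
  have hp : p.Prime := Fact.out
  haveI : NeZero p := ⟨hp.ne_zero⟩
  have hex : ∃ k : ZMod p, g B = ζ ^ k.val * B := ⟨0, by simp [hg]⟩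
  have hk : kumQ p ζ B g = hex.choose := by
    unfold kumQ
    rw [dif_pos hex]
  have hs : ζ ^ (hex.choose).val * B = B := hex.choose_spec.symm.trans hg
  rw [hk]
  have h1 : ζ ^ (hex.choose).val = 1 := by
    have h2 : ζ ^ (hex.choose).val * B = 1 * B := by rw [one_mul]; exact hs
    exact mul_right_cancel₀ hB h2
  have h3 : p ∣ (hex.choose).val := (hζ.pow_eq_one_iff_dvd _).mp h1
  have h4 : (hex.choose).val < p := ZMod.val_lt _
  have h5 : (hex.choose).val = 0 := Nat.eq_zero_of_dvd_of_lt h3 h4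
  exact (ZMod.val_eq_zero _).mp h5

/-- a power of a unit is a unit. -/
theorem h72e_isUnitAt_pow (A : ValuationSubring Qb) (x : Qb) (n : ℕ) (hx : IsUnitAt A x) :
    IsUnitAt A (x ^ n) :=
  ⟨pow_mem hx.1 n, by rw [← inv_pow]; exact pow_mem hx.2 n⟩

/-- a root of a unit is a unit. -/
theorem h72e_isUnitAt_of_pow (A : ValuationSubring Qb) (x : Qb) (n : ℕ) (hn : n ≠ 0)
    (hx : IsUnitAt A (x ^ n)) : IsUnitAt A x := by
  obtain ⟨h1, h2⟩ := hx
  rw [← inv_pow] at h2
  rw [← ValuationSubring.valuation_le_one_iff, map_pow] at h1 h2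
  exact ⟨(ValuationSubring.valuation_le_one_iff A x).mp ((pow_le_one_iff hn).mp h1),
    (ValuationSubring.valuation_le_one_iff A x⁻¹).mp ((pow_le_one_iff hn).mp h2)⟩

/-- iterated form of `KInertUnit`. -/
theorem h72e_inertUnit_iter (hUnit : KInertUnit) (p : ℕ) [Fact p.Prime] (q : ℕ)
    (A : ValuationSubring Qb) (hq : q.Prime) (hqp : q ≠ p) (hA : A.LiesOverPrime q)
    (ι : GQ₀) (hι : ι ∈ A.inertiaSubgroupIn ℚ) :
    ∀ (n : ℕ) (x : Qb), IsUnitAt A x → ι (x ^ p ^ n) = x ^ p ^ n → ι x = x := by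
  intro n
  induction n with
  | zero =>
    intro x _ h
    simpa using h
  | succ n ih =>
    intro x hx h
    have h1 : ι ((x ^ p) ^ p ^ n) = (x ^ p) ^ p ^ n := by
      rw [← pow_mul, ← pow_succ']
      exact h
    have h2 := ih (x ^ p) (h72e_isUnitAt_pow A x p hx) h1
    exact hUnit p q A x hq hqp hA hx ι hι h2

/-- the restriction to the local group at `w` of a Kummer function is level-constant. -/
theorem h72e_isLC1_kum (hKum : KKumBasic) {p : ℕ} [Fact p.Prime] {S : Finset Nat.Primes}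
    {U : Subgroup GQ₀} (hadm : Adm p S U) (u : USD U) (q : Nat.Primes) (w : (u.od q).W)
    (ζ B : Qb) (hζL : ζ ∈ fieldOf U) (hζ : IsPrimitiveRoot ζ p) (hB : B ≠ 0)
    (hBL : B ^ p ∈ fieldOf U) :
    IsLC1 (levW u q w) (fun h : ↥(VW u q w) => kumQ p ζ B ((locW u q w h : ↥U) : GQ₀)) := by
  have hp : p.Prime := Fact.out
  haveI : NeZero p := ⟨hp.ne_zero⟩
  obtain ⟨-, -, h3, -⟩ := hKum p (fieldOf U) ζ B hζL hζ hB hBL
  haveI : FiniteDimensional ℚ (fieldOf U) := h23r_finiteDimensional_fieldOf hadm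
  have hBint : IsIntegral ℚ B := ((AlgebraicClosure.isAlgebraic ℚ).isAlgebraic B).isIntegral
  haveI : FiniteDimensional ℚ (IntermediateField.adjoin ℚ {B}) :=
    IntermediateField.adjoin.finiteDimensional hBint
  haveI : FiniteDimensional ℚ ↥(fieldOf U ⊔ IntermediateField.adjoin ℚ {B}) :=
    IntermediateField.finiteDimensional_sup _ _
  set E : IntermediateField ℚ Qb := fieldOf U ⊔ IntermediateField.adjoin ℚ {B} with hE
  have hFfd : FiniteDimensional ℚ (pt79_galClosure E) := pt79_galClosure_finiteDimensional E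
  have hFn : Normal ℚ (pt79_galClosure E) := pt79_galClosure_normal E
  refine ⟨_, h72e_level_mem u q w (pt79_galClosure E) hFfd hFn, fun g s hs => ?_⟩
  have h1 : ((locW u q w s : ↥U) : GQ₀) ∈ (pt79_galClosure E).fixingSubgroup :=
    h72e_locW_mem_level u q w (pt79_galClosure E) hFn s hs
  have h2 : ((locW u q w s : ↥U) : GQ₀) ∈ E.fixingSubgroup :=
    IntermediateField.fixingSubgroup_antitone (pt79_le_galClosure E) h1
  show kumQ p ζ B ((locW u q w (g * s) : ↥U) : GQ₀) = kumQ p ζ B ((locW u q w g : ↥U) : GQ₀)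
  rw [map_mul]
  exact h3 _ _ h2

/-- the cup product of two level-constant additive characters is a continuous `2`-cocycle. -/
theorem h72e_cup_mem_Z2 {p : ℕ} [Fact p.Prime] {G : Type} [Group G] (L : Lev G)
    (χ ψ : G → ZMod p) (hχ : ∀ g h, χ (g * h) = χ g + χ h) (hψ : ∀ g h, ψ (g * h) = ψ g + ψ h)
    (hχlc : IsLC1 L χ) (hψlc : IsLC1 L ψ) :
    cup11 (LinearMap.mul (ZMod p) (ZMod p)) (Representation.trivial (ZMod p) G (ZMod p)) χ ψ ∈
      Z2 L (Representation.trivial (ZMod p) G (ZMod p)) := by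
  refine (mem_Z2 _ _ _).mpr ⟨?_, ?_⟩
  · funext x
    obtain ⟨g, h, j⟩ := x
    simp only [d2_apply, cup11_apply, Representation.trivial_apply, LinearMap.mul_apply',
      Pi.zero_apply]
    rw [hχ, hψ]
    ring
  · obtain ⟨N₁, h₁, hf⟩ := hχlc
    obtain ⟨N₂, h₂, hf'⟩ := hψlc
    obtain ⟨N, hN, hle⟩ := L.directed N₁ h₁ N₂ h₂
    refine ⟨N, hN, fun g g' s s' hs hs' => ?_⟩
    simp only [cup11_apply, Representation.trivial_apply, LinearMap.mul_apply']
    rw [hf g s (hle hs).1, hf' g' s' (hle hs').2]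

/-! ## The core: inertia-invariant cocycles have invariant `0` -/

theorem h72e_invW_eq_zero {p : ℕ} [Fact p.Prime] (inv : InvFam p) (hUnr : KUnrW)
    (hOK : InvWOK inv) {U : Subgroup GQ₀} [U.FiniteIndex] (u : USD U) (hU : AdmU p U)
    (q : Nat.Primes) (w : (u.od q).W) (c : ↥(VW u q w) × ↥(VW u q w) → ZMod p)
    (hc : c ∈ Z2 (levW u q w) (trivW p u q w))
    (hinv : ∀ g g' ι ι' : ↥(VW u q w), ι ∈ IW u q w → ι' ∈ IW u q w →
      c (g * ι, g' * ι') = c (g, g')) :
    invW inv u q w c = 0 :=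
  hOK U u hU q w c (hUnr p U u hU q w c hc hinv)

/-! ## The statement -/

theorem h72e_kLocEval : KLocEval := by
  intro p _ inv hUnr hOK hGam hUnit hZeta hKum _ S U _ u hadm q0 hq0 k h' ξ γ a ε hξ hγ0 hγL
    ha hε hω w
  have hp : p.Prime := Fact.out
  haveI : NeZero p := ⟨hp.ne_zero⟩
  have hq0p : (q0 : ℕ) ≠ p := by
    intro h
    apply hq0
    have e : q0 = pPrime p := Subtype.ext h
    rw [e]
    exact hadm.mem
  have hA := h72e_plcRing_liesOver u q0 w
  have hI : (plcRing u q0 w).inertiaSubgroupIn ℚ ≤ U := h72e_inertia_le hadm q0 hq0 _ hA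
  have hadmU : AdmU p U := h72e_admU hadm
  have hUfix : (fieldOf U).fixingSubgroup = U := h23r_fixingSubgroup_fieldOf hadm
  -- the primitive `p`-th root of unity
  have hζ : IsPrimitiveRoot (ξ ^ p ^ k) p := by
    have h1 : p ^ (k + 1) = p ^ k * p := pow_succ p k
    exact hξ.pow (pow_pos hp.pos _) h1
  have hζL : ξ ^ p ^ k ∈ fieldOf U := by
    rw [← h23b_cycloChar_trivial_iff p (fieldOf U) hζ, hUfix]
    exact hadm.chi
  -- the cocycle
  have hωZ := h72e_res2_mem_Z2 p (S := insert q0 S) u q0 w _ hω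
  -- `a` is additive
  have haadd : ∀ g h : ↥U, a (g * h) = a g + a h := by
    intro g h
    have e := congrFun ((mem_Z1 _ _ _).mp ha).1 (g, h)
    simp only [d1_apply, Pi.zero_apply, Representation.trivial_apply] at e
    linear_combination -e
  -- invariance of `a` and `ε` under inertia
  have hainv : ∀ (g : ↥U) (ι : ↥(VW u q0 w)), ι ∈ IW u q0 w →
      a (g * locW u q0 w ι) = a g := fun g ι hι =>
    h72e_lc1_inertia a ((mem_Z1 _ _ _).mp ha).2 q0 hq0 _ hA g _ (h72e_locW_mem_inertia u q0 w ι hι)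
  have hεinv : ∀ (g g' : ↥U) (ι ι' : ↥(VW u q0 w)), ι ∈ IW u q0 w → ι' ∈ IW u q0 w →
      ε (g * locW u q0 w ι, g' * locW u q0 w ι') = ε (g, g') := fun g g' ι ι' hι hι' =>
    h72e_lc2_inertia ε hε q0 hq0 _ hA g g' _ _ (h72e_locW_mem_inertia u q0 w ι hι)
      (h72e_locW_mem_inertia u q0 w ι' hι')
  -- inertia fixes `γ ^ p ^ (k + 1)`
  have hfixα : ∀ ι ∈ (plcRing u q0 w).inertiaSubgroupIn ℚ,
      ι (γ ^ p ^ (k + 1)) = γ ^ p ^ (k + 1) := by
    intro ι hι
    have h1 : ι ∈ (fieldOf U).fixingSubgroup := by rw [hUfix]; exact hI hι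
    exact (IntermediateField.mem_fixingSubgroup_iff _ _).mp h1 _ hγL
  refine ⟨?_, ?_⟩
  · -- the unit case
    intro hunit
    have hγunit : IsUnitAt (plcRing u q0 w) γ :=
      h72e_isUnitAt_of_pow _ γ (p ^ (k + 1)) (pow_ne_zero _ hp.ne_zero) hunit
    have hfixγ : ∀ ι ∈ (plcRing u q0 w).inertiaSubgroupIn ℚ, ι γ = γ := fun ι hι =>
      h72e_inertUnit_iter hUnit p q0 _ q0.2 hq0p hA ι hι (k + 1) γ hγunit (hfixα ι hι)
    have hζ'inv : ∀ (g : ↥U) (ι : ↥(VW u q0 w)), ι ∈ IW u q0 w →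
        zetaP p k ξ γ ((g * locW u q0 w ι : ↥U) : GQ₀) = zetaP p k ξ γ (g : GQ₀) := by
      intro g ι hι
      have hm := h72e_locW_mem_inertia u q0 w ι hι
      have h1 := hZeta p U k ξ γ hadm.chi hξ hγ0 hγL (g : GQ₀) g.2
        ((locW u q0 w ι : ↥U) : GQ₀) (locW u q0 w ι).2
        (by rw [map_pow, hfixγ _ hm])
      rw [h72e_kumQ_eq_zero p _ γ hζ hγ0 _ (hfixγ _ hm), add_zero] at h1
      exact h1
    apply h72e_invW_eq_zero inv hUnr hOK u hadmU q0 w _ hωZ
    intro g g' ι ι' hι hι'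
    simp only [res2_apply, map_mul, Pi.add_apply, cup11_apply, Representation.trivial_apply,
      LinearMap.mul_apply', Module.End.mul_apply]
    rw [hεinv _ _ ι ι' hι hι', hainv _ ι hι, hζ'inv _ ι' hι']
  · -- the uniformizer case
    intro ϖ Pr hϖ hPr hx
    have hPr0 : Pr ≠ 0 := by
      intro h
      apply hϖ.2.1
      rw [← hPr, h, zero_pow hp.ne_zero]
    have hPrL : Pr ^ p ∈ fieldOf U := by rw [hPr]; exact hϖ.1
    have hI' : (plcRing u q0 w).inertiaSubgroupIn ℚ ≤ (fieldOf U).fixingSubgroup := by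
      rw [hUfix]; exact hI
    have hgam := hGam p q0 (plcRing u q0 w) (fieldOf U) k h' (ξ ^ p ^ k) γ Pr ϖ q0.2 hq0p hA hI'
      hζ hγ0 hγL hϖ hPr hx
    obtain ⟨-, hκadd, -, -⟩ := hKum p (fieldOf U) (ξ ^ p ^ k) Pr hζL hζ hPr0 hPrL
    rw [hUfix] at hκadd
    -- the two characters on the local group
    set aw : ↥(VW u q0 w) → ZMod p := res1 (ZMod p) (ZMod p) (locW u q0 w) a with haw
    set κw : ↥(VW u q0 w) → ZMod p :=
      fun h => kumQ p (ξ ^ p ^ k) Pr ((locW u q0 w h : ↥U) : GQ₀) with hκw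
    have hawadd : ∀ g h, aw (g * h) = aw g + aw h := fun g h => by
      simp only [haw, res1_apply, map_mul]
      exact haadd _ _
    have hκwadd : ∀ g h, κw (g * h) = κw g + κw h := fun g h => by
      simp only [hκw, map_mul]
      exact hκadd _ (locW u q0 w g).2 _ (locW u q0 w h).2
    have hawlc : IsLC1 (levW u q0 w) aw :=
      h72e_isLC1_res u q0 w a ((mem_Z1 _ _ _).mp ha).2
    have hκwlc : IsLC1 (levW u q0 w) κw :=
      h72e_isLC1_kum hKum hadm u q0 w _ Pr hζL hζ hPr0 hPrL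
    have hC := h72e_cup_mem_Z2 (levW u q0 w) aw κw hawadd hκwadd hawlc hκwlc
    have hζ'inv : ∀ (g : ↥U) (ι : ↥(VW u q0 w)), ι ∈ IW u q0 w →
        zetaP p k ξ γ ((g * locW u q0 w ι : ↥U) : GQ₀) =
          zetaP p k ξ γ (g : GQ₀) + (h' : ZMod p) * κw ι := by
      intro g ι hι
      have hm := h72e_locW_mem_inertia u q0 w ι hι
      have h1 := hZeta p U k ξ γ hadm.chi hξ hγ0 hγL (g : GQ₀) g.2
        ((locW u q0 w ι : ↥U) : GQ₀) (locW u q0 w ι).2 (hgam _ hm).1
      rw [(hgam _ hm).2] at h1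
      exact h1
    have hcZ : res2 (ZMod p) (ZMod p) (locW u q0 w)
          (ε + cup11 (LinearMap.mul (ZMod p) (ZMod p)) (trivF p U) a
            (fun g : ↥U => zetaP p k ξ γ g)) -
        (h' : ZMod p) • cup11 (LinearMap.mul (ZMod p) (ZMod p)) (trivW p u q0 w) aw κw ∈
          Z2 (levW u q0 w) (trivW p u q0 w) :=
      Submodule.sub_mem _ hωZ (Submodule.smul_mem _ _ hC)
    have h0 := h72e_invW_eq_zero inv hUnr hOK u hadmU q0 w _ hcZ (by
      intro g g' ι ι' hι hι'
      simp only [res2_apply, map_mul, Pi.add_apply, Pi.sub_apply, Pi.smul_apply, cup11_apply,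
        Representation.trivial_apply, LinearMap.mul_apply', smul_eq_mul, Module.End.mul_apply]
      rw [hεinv _ _ ι ι' hι hι', hainv _ ι hι, hζ'inv _ ι' hι', hawadd, hκwadd]
      have e1 : aw ι = 0 := by
        have := hainv 1 ι hι
        rw [one_mul] at this
        have h1 : a 1 = 0 := by
          have := haadd 1 1
          rw [one_mul] at this
          linear_combination -this
        simp only [haw, res1_apply]
        rw [this, h1]
      rw [e1]
      simp only [haw, res1_apply]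
      ring)
    rw [map_sub, map_smul, smul_eq_mul] at h0
    exact sub_eq_zero.mp h0

end

end Fermat.Agent.PT.Glob
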