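import Mathlib
import Fermat.Agent.PT.Glob.KIface5
import Fermat.Agent.PT.Bridge.RelDictDU
import Fermat.Agent.PT.Loc.H36Unr

/-!
# W3-PT / PT-GLOB-K, leaf K-DP-UNRW (helper90)

`h90u_kUnrW : KUnrW` : an unramified continuous `2`-cocycle of the local group at the orbit
representative `w` (trivial coefficients `𝔽_p`) is a coboundary.

Frame form of helper36's `h36n_locUnr : H36LocUnr` through helper23's dictionary
(`PT/Bridge/RelDict.lean`, `RelDictDU.lean`): `VW u q w = GK (h23r_fieldAt q U u w)`.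
-/

set_option autoImplicit false
set_option linter.style.haveILetI false

open ExtCitation NumberField IsDedekindDomain MulAction
open scoped Pointwise

namespace Fermat.Agent.PT.Glob

open Fermat.Agent.PT Fermat.Agent.PT.Shap Fermat.Agent.Bridge Fermat.Agent.PT.Bridge
  Fermat.Agent.PT.Loc

noncomputable section

attribute [local instance] locActQ

/-- `U` open for the finite levels is the group of its fixed field. -/
theorem h90u_fixingSubgroup_fieldOf {p : ℕ} [Fact p.Prime] {U : Subgroup GQ}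
    (hadm : AdmU p U) : (fieldOf U).fixingSubgroup = U := by
  obtain ⟨L, -, hU⟩ := (h23b_isOpen_levFin_iff U).mp hadm.isOpen
  haveI := h23b_isGalois_Qb
  have hL : fieldOf U = L := by
    rw [hU]
    exact InfiniteGalois.fixedField_fixingSubgroup L
  rw [hL, ← hU]

theorem h90u_finiteDimensional_fieldOf {p : ℕ} [Fact p.Prime] {U : Subgroup GQ}
    (hadm : AdmU p U) : FiniteDimensional ℚ (fieldOf U) := by
  obtain ⟨L, hfd, hU⟩ := (h23b_isOpen_levFin_iff U).mp hadm.isOpen
  haveI := h23b_isGalois_Qb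
  have hL : fieldOf U = L := by
    rw [hU]
    exact InfiniteGalois.fixedField_fixingSubgroup L
  rw [hL]
  exact hfd

theorem h90u_finiteDimensional_fieldAt {p : ℕ} [Fact p.Prime] {U : Subgroup GQ}
    (hadm : AdmU p U) (u : USD U) (q : Nat.Primes) (w : GQ ⧸ U) :
    letI : Fact (q : ℕ).Prime := ⟨q.2⟩
    FiniteDimensional ℚ_[(q : ℕ)] (h23r_fieldAt q U u w) := by
  letI : Fact (q : ℕ).Prime := ⟨q.2⟩
  haveI := h90u_finiteDimensional_fieldOf hadm
  haveI : FiniteDimensional ℚ ((fieldOf U).map ((u.sec.gsec w : GQ) : Qb →ₐ[ℚ] Qb)) :=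
    LinearEquiv.finiteDimensional
      (IntermediateField.equivMap (fieldOf U) ((u.sec.gsec w : GQ) : Qb →ₐ[ℚ] Qb)).toLinearEquiv
  exact h23b_finiteDimensional_localField (q : ℕ) _

/-- **K-DP-UNRW.** -/
theorem h90u_kUnrW : KUnrW := by
  intro p _ U _ u hadm q w c hc hinv
  letI : Fact (q : ℕ).Prime := ⟨q.2⟩
  have hU := h90u_fixingSubgroup_fieldOf hadm
  have hVW : (VW u q w : Subgroup (Gq (q : ℕ))) = GK (h23r_fieldAt q U u w.1) :=
    h23r_stabilizer_eq_GK q U hU u w.1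
  have hemb : h23r_IsEmb (VW u q w).subtype (h23r_fieldAt q U u w.1) :=
    h23r_isEmb_subtype_of_eq _ _ hVW
  haveI : FiniteDimensional ℚ_[(q : ℕ)] (h23r_fieldAt q U u w.1) :=
    h90u_finiteDimensional_fieldAt hadm u q w.1
  have hρ : ∀ (h : ↥(VW u q w)) (v : ZMod p), trivW p u q w h v = v := fun _ _ => rfl
  obtain ⟨c', rfl⟩ := h23r_exists_pb2 hemb (trivW p u q w) hρ c
  have hc' : h23r_pb2 (VW u q w).subtype c' ∈
      Z2 (h23r_lev (VW u q w).subtype) (trivW p u q w) := hc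
  rw [h23r_mem_Z2_iff hemb _ hρ] at hc'
  show h23r_pb2 (VW u q w).subtype c' ∈ B2 (h23r_lev (VW u q w).subtype) (trivW p u q w)
  rw [h23r_mem_B2_iff hemb _ hρ]
  refine h36n_locUnr (q : ℕ) p (h23r_fieldAt q U u w.1) c' hc'.1 hc'.2 ?_
  intro g hg g' hg' i i' hi hi'
  rw [h23b_isInert_iff] at hi hi'
  have hgV : g ∈ VW u q w := by rw [hVW]; exact hg
  have hg'V : g' ∈ VW u q w := by rw [hVW]; exact hg'
  have hiV : i ∈ VW u q w := by rw [hVW]; exact hi.1
  have hi'V : i' ∈ VW u q w := by rw [hVW]; exact hi'.1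
  exact hinv ⟨g, hgV⟩ ⟨g', hg'V⟩ ⟨i, hiV⟩ ⟨i', hi'V⟩ hi.2 hi'.2

end

end Fermat.Agent.PT.Glob
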