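import Mathlib
import Fermat.Agent.PT.Glob.KIface5
import Fermat.Agent.PT.Bridge.RelDictDU
import Fermat.Agent.PT.Bridge.LocGrpE
import Fermat.Agent.PT.Bridge.Frob
import Fermat.Agent.PT.Bridge.Inertia

/-!
# W3-PT / PT-GLOB-K (d'), leaf K-DP-FROBW (helper83)

`h83w_kFrobW : KFrobW` — for `A0` over `q0` and a Frobenius `σ ∈ U` at `A0` there are an orbit
representative `w0`, a Frobenius `φ` of the local group at `w0` and `x ∈ U` with
`plcRing w0 = x • A0`, `locW φ = x σ x⁻¹`; the other orbit representatives lie over other primes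
of `L = ℚ̄^U`.

Proof: `A0 = g⁻¹ • P` (`P = padicPlace q0`); `w0 = rep (g U)`, `g U = loc(h) • w0`,
`g = loc(h) · gsec(w0) · v` with `v ∈ U`; `x = v`; `σ = g⁻¹ loc(φ₀) g` with `φ₀` a local Frobenius,
`φ = h⁻¹ φ₀ h`.  Distinct orbits cut out distinct primes by `h23b_primeUnder_eq_iff`.
-/

set_option autoImplicit false
set_option linter.style.haveILetI false

open ExtCitation NumberField IsDedekindDomain MulAction
open scoped Pointwise

namespace Fermat.Agent.PT.Glob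

open Fermat.Agent.PT Fermat.Agent.PT.Shap Fermat.Agent.Bridge Fermat.Agent.PT.Bridge

local notation "GQ₀" => (AlgebraicClosure ℚ ≃ₐ[ℚ] AlgebraicClosure ℚ)

noncomputable section

attribute [local instance] locActQ

/-- A conjugate of a local Frobenius element (roots of unity criterion) is one. -/
theorem h83w_frob_conj (q : ℕ) [Fact q.Prime] (h φ₀ : PadicAlgCl q ≃ₐ[ℚ_[q]] PadicAlgCl q)
    (hφ₀ : ∀ (w : PadicAlgCl q) (m : ℕ), 0 < m → ¬ q ∣ m → w ^ m = 1 → φ₀ w = w ^ q) :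
    ∀ (w : PadicAlgCl q) (m : ℕ), 0 < m → ¬ q ∣ m → w ^ m = 1 → (h⁻¹ * φ₀ * h) w = w ^ q := by
  intro w m hm hnd hw
  have h1 : (h w) ^ m = 1 := by rw [← map_pow, hw, map_one]
  have h2 := hφ₀ (h w) m hm hnd h1
  show h⁻¹ (φ₀ (h w)) = w ^ q
  rw [h2, ← map_pow]
  exact h.symm_apply_apply _

/-- The action of the local group on the cosets, on representatives. -/
theorem h83w_smul_mk (U : Subgroup GQ₀) (q : Nat.Primes) (τ : primeLocalGaloisGroup q)
    (g : GQ₀) : τ • (QuotientGroup.mk g : GQ₀ ⧸ U)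
      = (QuotientGroup.mk (primeLocalToGlobal q τ * g) : GQ₀ ⧸ U) := rfl

/-- The action of the local group on a coset, through the section. -/
theorem h83w_smul_eq (U : Subgroup GQ₀) (u : USD U) (q : Nat.Primes)
    (τ : primeLocalGaloisGroup q) (x : GQ₀ ⧸ U) :
    τ • x = (QuotientGroup.mk (primeLocalToGlobal q τ * u.sec.gsec x) : GQ₀ ⧸ U) := by
  conv_lhs => rw [← u.sec.gsec_mk x]
  rfl

/-- **K-DP-FROBW** under the only hypothesis used: `U` is the fixing subgroup of its fixed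
field. -/
theorem h83w_kFrobW_of (U : Subgroup GQ₀) (hU : (fieldOf U).fixingSubgroup = U) (u : USD U)
    (q0 : Nat.Primes) (A0 : ValuationSubring Qb) (σ : GQ₀)
    (hA0 : A0.LiesOverPrime (q0 : ℕ)) (hσU : σ ∈ U) (hσ : A0.IsFrobeniusAt σ (q0 : ℕ)) :
    ∃ (w0 : (u.od q0).W) (φ : ↥(VW u q0 w0)) (x : GQ₀), x ∈ U ∧
      plcRing u q0 w0 = x • A0 ∧
      ((locW u q0 w0 φ : ↥U) : GQ₀) = x * σ * x⁻¹ ∧
      (primeLocalPlace q0).IsFrobeniusAt (primeLocalToGlobal q0 φ) (q0 : ℕ) ∧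
      ∀ w : (u.od q0).W, w ≠ w0 →
        primeUnder (plcRing u q0 w) (fieldOf U) ≠ primeUnder A0 (fieldOf U) := by
  haveI : Fact (q0 : ℕ).Prime := ⟨q0.2⟩
  -- `A0 = g⁻¹ • P`
  obtain ⟨g, hg⟩ := h23b_exists_smul_padicPlace (q0 : ℕ) hA0
  -- the orbit representative
  obtain ⟨w0, hw0⟩ : ∃ w0 : (u.od q0).W, w0 = (u.od q0).repW (QuotientGroup.mk g) := ⟨_, rfl⟩
  obtain ⟨h, hh⟩ : ∃ h : primeLocalGaloisGroup q0,
      h = (u.od q0).sec (QuotientGroup.mk g : GQ₀ ⧸ U) := ⟨_, rfl⟩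
  have hsec : h • (w0.1 : GQ₀ ⧸ U) = QuotientGroup.mk g := by
    rw [hh, hw0]
    exact (u.od q0).sec_smul _
  -- `g = loc(h) · gsec(w0) · v`
  have hmk : (QuotientGroup.mk (primeLocalToGlobal q0 h * u.sec.gsec w0.1) : GQ₀ ⧸ U)
      = QuotientGroup.mk g := by
    rw [← h83w_smul_eq U u q0 h w0.1, hsec]
  obtain ⟨v, hvU, hgdec⟩ : ∃ v ∈ U, g = primeLocalToGlobal q0 h * u.sec.gsec w0.1 * v :=
    ⟨(primeLocalToGlobal q0 h * u.sec.gsec w0.1)⁻¹ * g, QuotientGroup.eq.1 hmk, by group⟩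
  -- `loc(h)` stabilises `P`
  have hhP : (primeLocalToGlobal q0 h)⁻¹ • padicPlace (q0 : ℕ) = padicPlace (q0 : ℕ) :=
    MulAction.mem_stabilizer_iff.1
      (inv_mem (localGaloisToGlobal_mem_decompositionSubgroup (q0 : ℕ) h))
  -- (1)
  have h1 : plcRing u q0 w0 = v • A0 := by
    have e : v * g⁻¹ = (u.sec.gsec w0.1)⁻¹ * (primeLocalToGlobal q0 h)⁻¹ := by
      rw [hgdec]
      group
    rw [← hg, smul_smul, e, mul_smul, hhP]
    rfl
  -- the local Frobenius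
  rw [← hg] at hσ
  obtain ⟨φ₀, hφ₀, hσeq⟩ := (h23b_isFrobeniusAt_conj_iff (q0 : ℕ) g σ).1 hσ
  have hφ := h83w_frob_conj (q0 : ℕ) h φ₀ hφ₀
  obtain ⟨φ, hφdef⟩ : ∃ φ : primeLocalGaloisGroup q0,
      φ = h⁻¹ * (show primeLocalGaloisGroup q0 from φ₀) * h := ⟨_, rfl⟩
  have hloc : primeLocalToGlobal q0 φ
      = u.sec.gsec w0.1 * (v * σ * v⁻¹) * (u.sec.gsec w0.1)⁻¹ := by
    have e : primeLocalToGlobal q0 φ
        = (primeLocalToGlobal q0 h)⁻¹ * localGaloisToGlobal (q0 : ℕ) φ₀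
          * primeLocalToGlobal q0 h := by
      rw [hφdef, map_mul, map_mul, map_inv]
      rfl
    rw [e, hσeq, hgdec]
    group
  have hvσ : v * σ * v⁻¹ ∈ U := U.mul_mem (U.mul_mem hvU hσU) (U.inv_mem hvU)
  have hstab : φ ∈ VW u q0 w0 := by
    rw [MulAction.mem_stabilizer_iff, h83w_smul_eq U u q0 φ w0.1, hloc]
    conv_rhs => rw [← u.sec.gsec_mk w0.1]
    rw [QuotientGroup.eq]
    have e2 : (u.sec.gsec w0.1 * (v * σ * v⁻¹) * (u.sec.gsec w0.1)⁻¹ * u.sec.gsec w0.1)⁻¹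
        * u.sec.gsec w0.1 = (v * σ * v⁻¹)⁻¹ := by group
    rw [e2]
    exact U.inv_mem hvσ
  refine ⟨w0, ⟨φ, hstab⟩, v, hvU, h1, ?_, ?_, ?_⟩
  · -- (2)
    show (u.sec.gsec w0.1)⁻¹ * primeLocalToGlobal q0 φ * u.sec.gsec w0.1
      = v * σ * v⁻¹
    rw [hloc]
    group
  · -- (3)
    have h3 := (h23b_isFrobeniusAt_iff (q0 : ℕ) _).2 hφ
    show (primeLocalPlace q0).IsFrobeniusAt (primeLocalToGlobal q0 φ) (q0 : ℕ)
    rw [hφdef]
    exact h3
  · -- (4)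
    intro w hw hprime
    apply hw
    have hprime' : primeUnder ((u.sec.gsec w.1)⁻¹ • padicPlace (q0 : ℕ)) (fieldOf U)
        = primeUnder (g⁻¹ • padicPlace (q0 : ℕ)) (fieldOf U) := by
      rw [hg]
      exact hprime
    obtain ⟨τ, u', hu', hgeq⟩ :=
      (h23b_primeUnder_eq_iff (q0 : ℕ) (fieldOf U) (u.sec.gsec w.1) g).1 hprime'
    rw [hU] at hu'
    -- `g U = τ • w`
    have e1 : (QuotientGroup.mk g : GQ₀ ⧸ U)
        = (show primeLocalGaloisGroup q0 from τ) • (w.1 : GQ₀ ⧸ U) := by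
      rw [h83w_smul_eq U u q0 (show primeLocalGaloisGroup q0 from τ) w.1, hgeq, eq_comm,
        QuotientGroup.eq]
      have e3 : (primeLocalToGlobal q0 (show primeLocalGaloisGroup q0 from τ)
            * u.sec.gsec w.1)⁻¹
          * (localGaloisToGlobal (q0 : ℕ) τ * u.sec.gsec w.1 * u') = u' := by
        show (localGaloisToGlobal (q0 : ℕ) τ * u.sec.gsec w.1)⁻¹
          * (localGaloisToGlobal (q0 : ℕ) τ * u.sec.gsec w.1 * u') = u'
        group
      rw [e3]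
      exact hu'
    apply Subtype.ext
    rw [hw0]
    show w.1 = (u.od q0).rep (QuotientGroup.mk g)
    rw [e1, (u.od q0).rep_smul, w.2]

/-- **K-DP-FROBW.** -/
theorem h83w_kFrobW : KFrobW := by
  intro p _ S U _ u q0 A0 σ hadm hA0 hσU hσ
  exact h83w_kFrobW_of U (h23r_fixingSubgroup_fieldOf hadm) u q0 A0 σ hA0 hσU hσ

end

end Fermat.Agent.PT.Glob
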